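import Fermat.Statements.S51

set_option autoImplicit false
open WeierstrassCurve WeierstrassCurve.Affine WeierstrassCurve.Affine.Point

namespace Fermat.Agent.S51

/-- The rational curve attached to an integral Weierstrass curve. -/
noncomputable abbrev EQ (W : WeierstrassCurve ℤ) : Affine ℚ := W.map (Int.castRingHom ℚ)

instance g_instIsAlgClosureQbar : IsAlgClosure ℚ (AlgebraicClosure ℚ) :=
  ⟨inferInstance, AlgebraicClosure.isAlgebraic ℚ⟩

theorem smul_some (W : WeierstrassCurve ℤ) (σ : AlgebraicClosure ℚ ≃ₐ[ℚ] AlgebraicClosure ℚ)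
    (x y : AlgebraicClosure ℚ) (h : ((EQ W)⁄(AlgebraicClosure ℚ)).Nonsingular x y) :
    ∃ h' : ((EQ W)⁄(AlgebraicClosure ℚ)).Nonsingular (σ x) (σ y),
      σ • (Point.some x y h : ((EQ W)⁄(AlgebraicClosure ℚ)).Point) = Point.some (σ x) (σ y) h' :=
  ⟨_, rfl⟩

theorem rational_of_fixed (z : AlgebraicClosure ℚ)
    (hz : ∀ σ : AlgebraicClosure ℚ ≃ₐ[ℚ] AlgebraicClosure ℚ, σ z = z) :
    ∃ q : ℚ, algebraMap ℚ (AlgebraicClosure ℚ) q = z := by
  have h := (InfiniteGalois.mem_bot_iff_fixed (k := ℚ) (K := AlgebraicClosure ℚ) z).mpr hz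
  exact IntermediateField.mem_bot.mp h

theorem exists_eigen_point (W : WeierstrassCurve ℤ) (p : ℕ) [Fact p.Prime]
    (hfin : Finite (Submodule.torsionBy ℤ ((EQ W)⁄(AlgebraicClosure ℚ)).Point p))
    (hcard : Nat.card (Submodule.torsionBy ℤ ((EQ W)⁄(AlgebraicClosure ℚ)).Point p) < p ^ 3)
    (hnt : Nontrivial (Submodule.torsionBy ℤ ((EQ W)⁄(AlgebraicClosure ℚ)).Point p))
    (h : ¬ W.ModRepIsIrreducible p) :
    ∃ P : ((EQ W)⁄(AlgebraicClosure ℚ)).Point, P ≠ 0 ∧ (p : ℤ) • P = 0 ∧
      ∀ σ : AlgebraicClosure ℚ ≃ₐ[ℚ] AlgebraicClosure ℚ, ∃ k : ℤ, σ • P = k • P := by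
  classical
  -- unfold reducibility
  have h' : ¬ (Nontrivial (Submodule.torsionBy ℤ ((EQ W)⁄(AlgebraicClosure ℚ)).Point p) ∧
      ∀ N : Submodule (ZMod p) (Submodule.torsionBy ℤ ((EQ W)⁄(AlgebraicClosure ℚ)).Point p),
        IsGaloisStable ℚ N → N = ⊥ ∨ N = ⊤) := h
  rw [not_and] at h'
  have h2 := h' hnt
  push Not at h2
  obtain ⟨N, hN, hNbot, hNtop⟩ := h2
  -- dimension count
  have hfd : Module.Finite (ZMod p)
      (Submodule.torsionBy ℤ ((EQ W)⁄(AlgebraicClosure ℚ)).Point p) := Module.Finite.of_finite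
  have hcard2 := Module.natCard_eq_pow_finrank (K := ZMod p)
    (V := Submodule.torsionBy ℤ ((EQ W)⁄(AlgebraicClosure ℚ)).Point p)
  rw [Nat.card_zmod] at hcard2
  rw [hcard2] at hcard
  have hp1 : 1 < p := (Fact.out : p.Prime).one_lt
  have hdim : Module.finrank (ZMod p)
      (Submodule.torsionBy ℤ ((EQ W)⁄(AlgebraicClosure ℚ)).Point p) < 3 :=
    (Nat.pow_lt_pow_iff_right hp1).mp hcard
  have hN1 : Module.finrank (ZMod p) N <
      Module.finrank (ZMod p) (Submodule.torsionBy ℤ ((EQ W)⁄(AlgebraicClosure ℚ)).Point p) :=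
    Submodule.finrank_lt hNtop
  have hN0 : 0 < Module.finrank (ZMod p) N := by
    rw [Module.finrank_pos_iff]
    exact (Submodule.nontrivial_iff_ne_bot).mpr hNbot
  have hN1' : Module.finrank (ZMod p) N = 1 := by omega
  obtain ⟨v, hv0, hv⟩ := finrank_eq_one_iff'.mp hN1'
  refine ⟨((v : Submodule.torsionBy ℤ ((EQ W)⁄(AlgebraicClosure ℚ)).Point p) :
    ((EQ W)⁄(AlgebraicClosure ℚ)).Point), ?_, ?_, ?_⟩
  · intro h0
    apply hv0
    apply Subtype.ext
    apply Subtype.ext
    exact h0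
  · have := (v : Submodule.torsionBy ℤ ((EQ W)⁄(AlgebraicClosure ℚ)).Point p).2
    rw [Submodule.mem_torsionBy_iff] at this
    exact this
  · intro σ
    have hσ : σ • (v : Submodule.torsionBy ℤ ((EQ W)⁄(AlgebraicClosure ℚ)).Point p) ∈ N :=
      hN σ _ v.2
    obtain ⟨c, hc⟩ := hv ⟨_, hσ⟩
    refine ⟨(c.val : ℤ), ?_⟩
    have hc1 := congrArg (fun w : N =>
      (((w : Submodule.torsionBy ℤ ((EQ W)⁄(AlgebraicClosure ℚ)).Point p)) :
        ((EQ W)⁄(AlgebraicClosure ℚ)).Point)) hc
    simp only at hc1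
    have hc2 : (c • v : N) = (c.val : ℕ) • v := by
      rw [← Nat.cast_smul_eq_nsmul (ZMod p), ZMod.natCast_zmod_val]
    rw [hc2] at hc1
    rw [natCast_zsmul]
    have hc3 : (((((c.val : ℕ) • v : N) :
        Submodule.torsionBy ℤ ((EQ W)⁄(AlgebraicClosure ℚ)).Point p)) :
        ((EQ W)⁄(AlgebraicClosure ℚ)).Point) =
        (c.val : ℕ) • (((v : Submodule.torsionBy ℤ ((EQ W)⁄(AlgebraicClosure ℚ)).Point p)) :
        ((EQ W)⁄(AlgebraicClosure ℚ)).Point) := by
      simp
    rw [← hc3, hc1]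
    rfl

section General


variable {F : Type*} [Field F] (E : Affine F)

/-- `ψ² = 4x³ + b₂x² + 2b₄x + b₆` on the curve, where `ψ = y - negY x y = 2y + a₁x + a₃`. -/
theorem g_psi_sq {x y : F} (h : E.Equation x y) :
    (y - E.negY x y) ^ 2 = 4 * x ^ 3 + E.b₂ * x ^ 2 + 2 * E.b₄ * x + E.b₆ := by
  have h' := (E.equation_iff x y).mp h
  simp only [negY, WeierstrassCurve.b₂, WeierstrassCurve.b₄, WeierstrassCurve.b₆]
  linear_combination 4 * h'

theorem g_psi_eq (x y : F) : y - E.negY x y = 2 * y + E.a₁ * x + E.a₃ := by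
  simp only [negY]; ring

section Dec
variable [DecidableEq F]

/-- Doubling formula for the `x`-coordinate:
`x(2P) · ψ² = x⁴ − b₄x² − 2b₆x − b₈`. -/
theorem g_addX_self_mul {x y : F} (h : E.Equation x y) (hy : y ≠ E.negY x y) :
    E.addX x x (E.slope x x y y) * (y - E.negY x y) ^ 2 =
      x ^ 4 - E.b₄ * x ^ 2 - 2 * E.b₆ * x - E.b₈ := by
  have h' := (E.equation_iff x y).mp h
  rw [slope_of_Y_ne rfl hy]
  have hψ : y - E.negY x y ≠ 0 := sub_ne_zero.mpr hy
  have hψdef : y - E.negY x y = 2 * y + E.a₁ * x + E.a₃ := g_psi_eq E x y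
  generalize y - E.negY x y = ψ at hψ hψdef ⊢
  simp only [addX, WeierstrassCurve.b₂, WeierstrassCurve.b₄, WeierstrassCurve.b₆,
    WeierstrassCurve.b₈]
  have key : (((3 * x ^ 2 + 2 * E.a₂ * x + E.a₄ - E.a₁ * y) / ψ) ^ 2 +
      E.a₁ * ((3 * x ^ 2 + 2 * E.a₂ * x + E.a₄ - E.a₁ * y) / ψ) - E.a₂ - x - x) * ψ ^ 2 =
      (3 * x ^ 2 + 2 * E.a₂ * x + E.a₄ - E.a₁ * y) ^ 2 +
      E.a₁ * (3 * x ^ 2 + 2 * E.a₂ * x + E.a₄ - E.a₁ * y) * ψ - (E.a₂ + 2 * x) * ψ ^ 2 := by
    field_simp
    ring
  rw [key, hψdef]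
  linear_combination (-(E.a₁ ^ 2 + 4 * E.a₂ + 8 * x)) * h'

/-- Doubling of an affine point which is not `2`-torsion. -/
theorem g_two_zsmul_some {x y : F} (h : E.Nonsingular x y) (hy : y ≠ E.negY x y) :
    (2 : ℤ) • (Point.some x y h) =
      Point.some (E.addX x x (E.slope x x y y)) (E.addY x x y (E.slope x x y y))
        (nonsingular_add h h fun hxy => hy hxy.2) := by
  rw [two_zsmul]
  exact add_self_of_Y_ne hy

theorem g_two_zsmul_eq_zero_iff {x y : F} (h : E.Nonsingular x y) :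
    (2 : ℤ) • (Point.some x y h) = 0 ↔ y = E.negY x y := by
  constructor
  · intro h2
    by_contra hy
    rw [g_two_zsmul_some E h hy] at h2
    exact some_ne_zero _ h2
  · intro hy
    rw [two_zsmul]
    exact add_self_of_Y_eq hy


end Dec



/-- Injective coding of points as optional coordinate pairs. -/
def g_toOpt : E.Point → Option (F × F)
  | .zero => none
  | .some x y _ => some (x, y)

theorem g_toOpt_injective : Function.Injective (g_toOpt E) := by
  rintro (_ | ⟨x₁, y₁, h₁⟩) (_ | ⟨x₂, y₂, h₂⟩) h <;>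
    simp only [g_toOpt, Option.some.injEq, Prod.mk.injEq, reduceCtorEq] at h
  · rfl
  · obtain ⟨rfl, rfl⟩ := h; rfl

/-- The quadratic polynomial in `Y` cutting out the points with given `x`-coordinate. -/
noncomputable def g_quad (x : F) : Polynomial F :=
  Polynomial.C 1 * Polynomial.X ^ 2 + Polynomial.C (E.a₁ * x + E.a₃) * Polynomial.X +
    Polynomial.C (-(x ^ 3 + E.a₂ * x ^ 2 + E.a₄ * x + E.a₆))

theorem g_quad_natDegree (x : F) : (g_quad E x).natDegree = 2 :=
  Polynomial.natDegree_quadratic one_ne_zero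

theorem g_quad_ne_zero (x : F) : g_quad E x ≠ 0 := by
  intro h
  have := g_quad_natDegree E x
  rw [h, Polynomial.natDegree_zero] at this
  exact absurd this (by norm_num)

theorem g_quad_eval {x y : F} (h : E.Equation x y) : (g_quad E x).eval y = 0 := by
  have h' := (E.equation_iff x y).mp h
  simp only [g_quad, Polynomial.eval_add, Polynomial.eval_mul, Polynomial.eval_C,
    Polynomial.eval_pow, Polynomial.eval_X]
  linear_combination h'

/-- If the `x`-coordinates of all nonzero `n`-torsion points are roots of a nonzero polynomial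
`f`, then the `n`-torsion is finite with at most `2 * deg f + 1` elements. -/
theorem g_card_torsion_le [DecidableEq F] (n : ℕ) (f : Polynomial F) (hf : f ≠ 0)
    (h : ∀ (x y : F) (hxy : E.Nonsingular x y), (n : ℤ) • Point.some x y hxy = 0 → f.eval x = 0) :
    Finite (Submodule.torsionBy ℤ E.Point n) ∧
      Nat.card (Submodule.torsionBy ℤ E.Point n) ≤ 2 * f.natDegree + 1 := by
  classical
  let T : Finset (F × F) := f.roots.toFinset.biUnion
    (fun x => (g_quad E x).roots.toFinset.image (fun y => (x, y)))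
  have hT : T.card ≤ 2 * f.natDegree := by
    calc T.card ≤ ∑ x ∈ f.roots.toFinset,
          ((g_quad E x).roots.toFinset.image (fun y => (x, y))).card := Finset.card_biUnion_le
      _ ≤ ∑ _x ∈ f.roots.toFinset, 2 := by
          refine Finset.sum_le_sum (fun x _ => ?_)
          calc ((g_quad E x).roots.toFinset.image (fun y => (x, y))).card
              ≤ (g_quad E x).roots.toFinset.card := Finset.card_image_le
            _ ≤ Multiset.card (g_quad E x).roots := Multiset.toFinset_card_le _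
            _ ≤ (g_quad E x).natDegree := Polynomial.card_roots' _
            _ = 2 := g_quad_natDegree E x
      _ = f.roots.toFinset.card * 2 := by rw [Finset.sum_const, smul_eq_mul]
      _ ≤ f.natDegree * 2 := by
          refine Nat.mul_le_mul_right 2 ?_
          exact (Multiset.toFinset_card_le _).trans (Polynomial.card_roots' _)
      _ = 2 * f.natDegree := mul_comm _ _
  let S : Finset (Option (F × F)) := insert none (T.image some)
  have hS : S.card ≤ 2 * f.natDegree + 1 := by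
    calc S.card ≤ (T.image some).card + 1 := Finset.card_insert_le _ _
      _ ≤ T.card + 1 := Nat.add_le_add_right Finset.card_image_le 1
      _ ≤ 2 * f.natDegree + 1 := Nat.add_le_add_right hT 1
  have hmem : ∀ P : Submodule.torsionBy ℤ E.Point n, g_toOpt E (P : E.Point) ∈ S := by
    rintro ⟨P, hP⟩
    rw [Submodule.mem_torsionBy_iff] at hP
    rcases P with _ | ⟨x, y, hxy⟩
    · exact Finset.mem_insert_self _ _
    · refine Finset.mem_insert_of_mem (Finset.mem_image.mpr ⟨(x, y), ?_, rfl⟩)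
      refine Finset.mem_biUnion.mpr ⟨x, ?_, Finset.mem_image.mpr ⟨y, ?_, rfl⟩⟩
      · rw [Multiset.mem_toFinset, Polynomial.mem_roots hf]
        exact h x y hxy hP
      · rw [Multiset.mem_toFinset, Polynomial.mem_roots (g_quad_ne_zero E x)]
        exact g_quad_eval E hxy.1
  let g : Submodule.torsionBy ℤ E.Point n → S := fun P => ⟨g_toOpt E (P : E.Point), hmem P⟩
  have hg : Function.Injective g := by
    intro P Q hPQ
    apply Subtype.ext
    apply g_toOpt_injective E
    exact congrArg Subtype.val hPQ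
  refine ⟨Finite.of_injective g hg, ?_⟩
  calc Nat.card (Submodule.torsionBy ℤ E.Point n) ≤ Nat.card S := Nat.card_le_card_of_injective g hg
    _ = S.card := Nat.card_eq_finsetCard S
    _ ≤ 2 * f.natDegree + 1 := hS


end General

end Fermat.Agent.S51
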