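import Mathlib

/-!
# S51, piece T5: the algebraic identity behind the Hauptmodul of `X_0(5)`

If `x₁, x₂` are the `x`-coordinates of `P, 2P` for a point `P` of order `5` on a Weierstrass curve
(so that the duplication map exchanges `x₁` and `x₂`), then with `d = x₁ - x₂`
`c₄ d ^ 10 = Δ ^ 2 + 10 Δ d ^ 6 + 5 d ^ 12`.
-/

namespace Fermat.Agent.S51

/-- short Weierstrass form `y² = x³ + a x + b`; `u = x(P)`, `u - d = x(2P)`. -/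
theorem five_key_short {F : Type*} [Field F] (u d a b : F) (hd : d ≠ 0)
    (h1 : 4 * (u ^ 3 + a * u + b) * (3 * u - d) - (3 * u ^ 2 + a) ^ 2 = 0)
    (h2 : 4 * ((u - d) ^ 3 + a * (u - d) + b) * (3 * u - 2 * d) - (3 * (u - d) ^ 2 + a) ^ 2 = 0) :
    (-48 * a) * d ^ 10 = (-16 * (4 * a ^ 3 + 27 * b ^ 2)) ^ 2
      + 10 * (-16 * (4 * a ^ 3 + 27 * b ^ 2)) * d ^ 6 + 5 * d ^ 12 := by
  have key : d * ((-48 * a) * d ^ 10 - (-16 * (4 * a ^ 3 + 27 * b ^ 2)) ^ 2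
      - 10 * (-16 * (4 * a ^ 3 + 27 * b ^ 2)) * d ^ 6 - 5 * d ^ 12) = 0 := by
    linear_combination
      ((36) * u ^ 3 * d ^ 6 + (288) * u ^ 3 * d ^ 4 * a + (-2304) * u ^ 3 * a ^ 3 + (-15552) * u ^ 3 * b ^ 2 + (-78) * u ^ 2 * d ^ 7 + (-624) * u ^ 2 * d ^ 5 * a + (-432) * u ^ 2 * d ^ 4 * b + (4992) * u ^ 2 * d * a ^ 3 + (33696) * u ^ 2 * d * b ^ 2 + (48) * u * d ^ 8 + (420) * u * d ^ 6 * a + (720) * u * d ^ 5 * b + (480) * u * d ^ 4 * a ^ 2 + (-2304) * u * d ^ 2 * a ^ 3 + (-15552) * u * d ^ 2 * b ^ 2 + (-5376) * u * a ^ 4 + (-36288) * u * a * b ^ 2 + (-1) * d ^ 9 + (-26) * d ^ 7 * a + (-252) * d ^ 6 * b + (-368) * d ^ 5 * a ^ 2 + (432) * d ^ 4 * a * b + (-832) * d ^ 3 * a ^ 3 + (-5616) * d ^ 3 * b ^ 2 + (4736) * d * a ^ 4 + (31968) * d * a * b ^ 2 + (-6912) * a ^ 3 * b + (-46656) * b ^ 3) * h1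
      + ((-36) * u ^ 3 * d ^ 6 + (-288) * u ^ 3 * d ^ 4 * a + (2304) * u ^ 3 * a ^ 3 + (15552) * u ^ 3 * b ^ 2 + (30) * u ^ 2 * d ^ 7 + (240) * u ^ 2 * d ^ 5 * a + (432) * u ^ 2 * d ^ 4 * b + (-1920) * u ^ 2 * d * a ^ 3 + (-12960) * u ^ 2 * d * b ^ 2 + (-36) * u * d ^ 6 * a + (-144) * u * d ^ 5 * b + (-480) * u * d ^ 4 * a ^ 2 + (-768) * u * d ^ 2 * a ^ 3 + (-5184) * u * d ^ 2 * b ^ 2 + (5376) * u * a ^ 4 + (36288) * u * a * b ^ 2 + (5) * d ^ 9 + (58) * d ^ 7 * a + (-36) * d ^ 6 * b + (112) * d ^ 5 * a ^ 2 + (-432) * d ^ 4 * a * b + (-448) * d ^ 3 * a ^ 3 + (-3024) * d ^ 3 * b ^ 2 + (-640) * d * a ^ 4 + (-4320) * d * a * b ^ 2 + (6912) * a ^ 3 * b + (46656) * b ^ 3) * h2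
  have := (mul_eq_zero.mp key).resolve_left hd
  linear_combination this

/-- general Weierstrass form, in terms of the `b`-quantities: if the duplication map
`x ↦ (x⁴ - b₄x² - 2b₆x - b₈) / (4x³ + b₂x² + 2b₄x + b₆)` exchanges `x₁ ≠ x₂` then
`c₄ (x₁ - x₂) ^ 10 = Δ ^ 2 + 10 Δ (x₁ - x₂) ^ 6 + 5 (x₁ - x₂) ^ 12`. -/
theorem five_key {F : Type*} [Field F] [CharZero F] (b2 b4 b6 b8 c4 c6 Δ x1 x2 : F)
    (hb8 : 4 * b8 = b2 * b6 - b4 ^ 2) (hc4 : c4 = b2 ^ 2 - 24 * b4)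
    (hc6 : c6 = -b2 ^ 3 + 36 * b2 * b4 - 216 * b6)
    (hΔ : Δ = -b2 ^ 2 * b8 - 8 * b4 ^ 3 - 27 * b6 ^ 2 + 9 * b2 * b4 * b6)
    (h1 : x2 * (4 * x1 ^ 3 + b2 * x1 ^ 2 + 2 * b4 * x1 + b6)
      = x1 ^ 4 - b4 * x1 ^ 2 - 2 * b6 * x1 - b8)
    (h2 : x1 * (4 * x2 ^ 3 + b2 * x2 ^ 2 + 2 * b4 * x2 + b6)
      = x2 ^ 4 - b4 * x2 ^ 2 - 2 * b6 * x2 - b8)
    (hne : x1 ≠ x2) :
    c4 * (x1 - x2) ^ 10 = Δ ^ 2 + 10 * Δ * (x1 - x2) ^ 6 + 5 * (x1 - x2) ^ 12 := by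
  have hd : x1 - x2 ≠ 0 := sub_ne_zero.mpr hne
  have h1' : 4 * ((x1 + b2 / 12) ^ 3 + (-c4 / 48) * (x1 + b2 / 12) + (-c6 / 864))
      * (3 * (x1 + b2 / 12) - (x1 - x2)) - (3 * (x1 + b2 / 12) ^ 2 + (-c4 / 48)) ^ 2 = 0 := by
    subst hc4 hc6
    linear_combination h1 - (1 / 4 : F) * hb8
  have h2' : 4 * (((x1 + b2 / 12) - (x1 - x2)) ^ 3 + (-c4 / 48) * ((x1 + b2 / 12) - (x1 - x2))
      + (-c6 / 864)) * (3 * (x1 + b2 / 12) - 2 * (x1 - x2))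
      - (3 * ((x1 + b2 / 12) - (x1 - x2)) ^ 2 + (-c4 / 48)) ^ 2 = 0 := by
    subst hc4 hc6
    linear_combination h2 - (1 / 4 : F) * hb8
  have key := five_key_short (x1 + b2 / 12) (x1 - x2) (-c4 / 48) (-c6 / 864) hd h1' h2'
  have e1 : (-48 : F) * (-c4 / 48) = c4 := by ring
  have e2 : -16 * (4 * (-c4 / 48) ^ 3 + 27 * (-c6 / 864) ^ 2) = Δ := by
    subst hc4 hc6 hΔ
    linear_combination (b2 ^ 2 / 4) * hb8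
  rw [e1, e2] at key
  exact key

end Fermat.Agent.S51
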