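import Mathlib

/-!
# S51, piece T5: points of order five on a Weierstrass curve (generic field)

* `five_dup`: the duplication formula in terms of the `b`-quantities;
* `five_torsion_rel`: for a point `P` of order five, `x(P)` and `x(2P)` are exchanged by
  the duplication map;
* `five_torsion_card`: the five-torsion subgroup is finite with at most `33` elements.
-/

open WeierstrassCurve WeierstrassCurve.Affine Polynomial

namespace Fermat.Agent.S51

section FivePoint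

variable {F : Type*} [Field F] [DecidableEq F] (V : WeierstrassCurve.Affine F)

/-- duplication formula on affine points, in terms of the `b`-quantities. -/
theorem five_dup {x y : F} (h : V.Nonsingular x y) (hy : y ≠ V.negY x y) :
    ∃ (x' y' : F) (h' : V.Nonsingular x' y'),
      Point.some x y h + Point.some x y h = Point.some x' y' h' ∧
      x' * (4 * x ^ 3 + V.b₂ * x ^ 2 + 2 * V.b₄ * x + V.b₆) =
        x ^ 4 - V.b₄ * x ^ 2 - 2 * V.b₆ * x - V.b₈ ∧
      4 * x ^ 3 + V.b₂ * x ^ 2 + 2 * V.b₄ * x + V.b₆ ≠ 0 := by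
  have heq := (Affine.equation_iff ..).mp h.1
  have hden : y - V.negY x y ≠ 0 := sub_ne_zero.mpr hy
  have hD : 4 * x ^ 3 + V.b₂ * x ^ 2 + 2 * V.b₄ * x + V.b₆ = (y - V.negY x y) ^ 2 := by
    simp only [WeierstrassCurve.b₂, WeierstrassCurve.b₄, WeierstrassCurve.b₆, Affine.negY]
    linear_combination (-4 : F) * heq
  refine ⟨_, _, _, Point.add_self_of_Y_ne hy, ?_, ?_⟩
  · rw [hD, Affine.slope_of_Y_ne rfl hy]
    obtain ⟨ℓ, hℓ⟩ : ∃ ℓ, ℓ = (3 * x ^ 2 + 2 * V.a₂ * x + V.a₄ - V.a₁ * y) / (y - V.negY x y) :=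
      ⟨_, rfl⟩
    rw [← hℓ]
    have hℓ' : ℓ * (y - V.negY x y) = 3 * x ^ 2 + 2 * V.a₂ * x + V.a₄ - V.a₁ * y := by
      rw [hℓ, div_mul_cancel₀ _ hden]
    simp only [Affine.addX, WeierstrassCurve.b₄, WeierstrassCurve.b₆, WeierstrassCurve.b₈,
      Affine.negY] at hℓ' ⊢
    linear_combination (ℓ * (y - (-y - V.a₁ * x - V.a₃)) + (3 * x ^ 2 + 2 * V.a₂ * x + V.a₄
      - V.a₁ * y) + V.a₁ * (y - (-y - V.a₁ * x - V.a₃))) * hℓ'
      - (8 * x + 4 * V.a₂ + V.a₁ ^ 2) * heq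
  · rw [hD]
    exact pow_ne_zero 2 hden

/-- A point `P` of order five: `x₁ = x(P)` and `x₂ = x(2P)` are distinct and exchanged by the
duplication map. -/
theorem five_torsion_rel {P : V.Point} (hP : P ≠ 0) (h5 : (5 : ℤ) • P = 0) :
    ∃ (x1 y1 : F) (h1 : V.Nonsingular x1 y1) (x2 y2 : F) (h2 : V.Nonsingular x2 y2),
      P = Point.some x1 y1 h1 ∧ P + P = Point.some x2 y2 h2 ∧
      x2 * (4 * x1 ^ 3 + V.b₂ * x1 ^ 2 + 2 * V.b₄ * x1 + V.b₆) =
        x1 ^ 4 - V.b₄ * x1 ^ 2 - 2 * V.b₆ * x1 - V.b₈ ∧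
      x1 * (4 * x2 ^ 3 + V.b₂ * x2 ^ 2 + 2 * V.b₄ * x2 + V.b₆) =
        x2 ^ 4 - V.b₄ * x2 ^ 2 - 2 * V.b₆ * x2 - V.b₈ ∧
      x1 ≠ x2 ∧ 4 * x1 ^ 3 + V.b₂ * x1 ^ 2 + 2 * V.b₄ * x1 + V.b₆ ≠ 0 := by
  have h5' : P + P + P + P + P = 0 := by rw [← h5]; abel
  have hA : P + P ≠ 0 := by
    intro h
    apply hP
    have : P = (P + P + P + P + P) - (P + P) - (P + P) := by abel
    rw [this, h5', h]; simp
  have hB : (P + P) + (P + P) ≠ 0 := by
    intro h
    apply hP
    have : P = (P + P + P + P + P) - ((P + P) + (P + P)) := by abel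
    rw [this, h5', h]; simp
  have hC : (P + P) + (P + P) = -P := by
    have : (P + P) + (P + P) = (P + P + P + P + P) - P := by abel
    rw [this, h5']; simp
  have hD : P ≠ P + P := by
    intro h
    apply hP
    have : P = (P + P) - P := by abel
    rw [this, ← h]; simp
  have hE : P ≠ -(P + P) := by
    intro h
    apply hA
    have : P + P = (P + P + P + P + P) - (P + (P + P)) := by abel
    rw [this, h5']
    nth_rewrite 1 [h]
    simp
  obtain ⟨x1, y1, h1, rfl⟩ : ∃ x1 y1 h1, P = Point.some x1 y1 h1 := by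
    rcases P with _ | ⟨x1, y1, h1⟩
    · exact absurd rfl hP
    · exact ⟨x1, y1, h1, rfl⟩
  have hy1 : y1 ≠ V.negY x1 y1 := fun hy => hA (Point.add_self_of_Y_eq hy)
  obtain ⟨x2, y2, h2, e2, r1, hD1⟩ := five_dup V h1 hy1
  rw [e2] at hB hC hD hE
  have hy2 : y2 ≠ V.negY x2 y2 := fun hy => hB (Point.add_self_of_Y_eq hy)
  obtain ⟨x4, y4, h4, e4, r2, -⟩ := five_dup V h2 hy2
  rw [e4, Point.neg_some] at hC
  have hx4 : x4 = x1 := by
    injection hC
  refine ⟨x1, y1, h1, x2, y2, h2, rfl, e2, r1, hx4 ▸ r2, ?_, hD1⟩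
  intro hx
  rcases (Point.X_eq_iff (h₁ := h1) (h₂ := h2)).mp hx with h | h
  · exact hD h
  · exact hE h

/-- the duplication map `x ↦ N(x) / D(x)` composed with itself is the identity on `x(P)` for
`P` of order five: the polynomial `N(N/D) D⁴ - x D (D(N/D) D³)`. -/
noncomputable def fivePhi (b2 b4 b6 b8 : F) : F[X] :=
  (X ^ 4 - C b4 * X ^ 2 - C (2 * b6) * X - C b8) ^ 4
    - C b4 * (X ^ 4 - C b4 * X ^ 2 - C (2 * b6) * X - C b8) ^ 2
      * (C 4 * X ^ 3 + C b2 * X ^ 2 + C (2 * b4) * X + C b6) ^ 2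
    - C (2 * b6) * (X ^ 4 - C b4 * X ^ 2 - C (2 * b6) * X - C b8)
      * (C 4 * X ^ 3 + C b2 * X ^ 2 + C (2 * b4) * X + C b6) ^ 3
    - C b8 * (C 4 * X ^ 3 + C b2 * X ^ 2 + C (2 * b4) * X + C b6) ^ 4
    - X * (C 4 * X ^ 3 + C b2 * X ^ 2 + C (2 * b4) * X + C b6)
      * (C 4 * (X ^ 4 - C b4 * X ^ 2 - C (2 * b6) * X - C b8) ^ 3
        + C b2 * (X ^ 4 - C b4 * X ^ 2 - C (2 * b6) * X - C b8) ^ 2
          * (C 4 * X ^ 3 + C b2 * X ^ 2 + C (2 * b4) * X + C b6)
        + C (2 * b4) * (X ^ 4 - C b4 * X ^ 2 - C (2 * b6) * X - C b8)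
          * (C 4 * X ^ 3 + C b2 * X ^ 2 + C (2 * b4) * X + C b6) ^ 2
        + C b6 * (C 4 * X ^ 3 + C b2 * X ^ 2 + C (2 * b4) * X + C b6) ^ 3)

omit [DecidableEq F] in
theorem fivePhi_coeff [CharZero F] (b2 b4 b6 b8 : F) :
    (fivePhi b2 b4 b6 b8).coeff 16 = -15 := by
  unfold fivePhi
  compute_degree!

omit [DecidableEq F] in
theorem fivePhi_ne_zero [CharZero F] (b2 b4 b6 b8 : F) : fivePhi b2 b4 b6 b8 ≠ 0 := by
  intro h
  have := fivePhi_coeff b2 b4 b6 b8
  rw [h, coeff_zero] at this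
  norm_num at this

omit [DecidableEq F] in
theorem fivePhi_natDegree_le (b2 b4 b6 b8 : F) : (fivePhi b2 b4 b6 b8).natDegree ≤ 16 := by
  unfold fivePhi
  compute_degree

theorem five_torsion_root {P : V.Point} (hP : P ≠ 0) (h5 : (5 : ℤ) • P = 0) :
    ∃ (x y : F) (h : V.Nonsingular x y), P = Point.some x y h ∧
      (fivePhi V.b₂ V.b₄ V.b₆ V.b₈).IsRoot x := by
  obtain ⟨x1, y1, h1, x2, y2, h2, rfl, -, r1, r2, -, hD1⟩ := five_torsion_rel V hP h5
  refine ⟨x1, y1, h1, rfl, ?_⟩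
  unfold fivePhi
  simp only [IsRoot.def, eval_sub, eval_mul, eval_pow, eval_add, eval_C, eval_X]
  generalize x1 ^ 4 - V.b₄ * x1 ^ 2 - 2 * V.b₆ * x1 - V.b₈ = N1 at r1 ⊢
  generalize 4 * x1 ^ 3 + V.b₂ * x1 ^ 2 + 2 * V.b₄ * x1 + V.b₆ = D1 at r1 ⊢
  subst r1
  linear_combination (-D1 ^ 4) * r2

/-- the five-torsion subgroup is finite, with at most `33` elements. -/
theorem five_torsion_card [CharZero F] :
    Finite (Submodule.torsionBy ℤ V.Point ((5 : ℕ) : ℤ)) ∧
      Nat.card (Submodule.torsionBy ℤ V.Point ((5 : ℕ) : ℤ)) ≤ 33 := by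
  classical
  have hΦ0 : fivePhi V.b₂ V.b₄ V.b₆ V.b₈ ≠ 0 := fivePhi_ne_zero _ _ _ _
  have hΦd := fivePhi_natDegree_le V.b₂ V.b₄ V.b₆ V.b₈
  set Φ := fivePhi V.b₂ V.b₄ V.b₆ V.b₈
  let q : F → F[X] := fun x =>
    X ^ 2 + C (V.a₁ * x + V.a₃) * X - C (x ^ 3 + V.a₂ * x ^ 2 + V.a₄ * x + V.a₆)
  have hqd : ∀ x, (q x).natDegree ≤ 2 := by
    intro x
    show (X ^ 2 + C (V.a₁ * x + V.a₃) * X
      - C (x ^ 3 + V.a₂ * x ^ 2 + V.a₄ * x + V.a₆) : F[X]).natDegree ≤ 2
    compute_degree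
  have hq0 : ∀ x, q x ≠ 0 := by
    intro x h
    have : (q x).coeff 2 = 1 := by
      show (X ^ 2 + C (V.a₁ * x + V.a₃) * X
        - C (x ^ 3 + V.a₂ * x ^ 2 + V.a₄ * x + V.a₆) : F[X]).coeff 2 = 1
      compute_degree!
    rw [h, coeff_zero] at this
    exact zero_ne_one this
  let T : Finset (F × F) :=
    Φ.roots.toFinset.biUnion fun x => (q x).roots.toFinset.image fun y => (x, y)
  have hT : T.card ≤ 32 := by
    calc T.card ≤ ∑ x ∈ Φ.roots.toFinset, ((q x).roots.toFinset.image fun y => (x, y)).card :=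
          Finset.card_biUnion_le
      _ ≤ ∑ x ∈ Φ.roots.toFinset, 2 := by
          refine Finset.sum_le_sum fun x _ => ?_
          exact Finset.card_image_le.trans ((Multiset.toFinset_card_le _).trans
            ((card_roots' _).trans (hqd x)))
      _ = Φ.roots.toFinset.card * 2 := by simp
      _ ≤ 16 * 2 := by
          refine Nat.mul_le_mul_right 2 ?_
          exact (Multiset.toFinset_card_le _).trans ((card_roots' _).trans hΦd)
  let T' : Finset (Option (F × F)) := insert none (T.image some)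
  have hT' : T'.card ≤ 33 := by
    calc T'.card ≤ (T.image some).card + 1 := Finset.card_insert_le _ _
      _ ≤ T.card + 1 := Nat.add_le_add_right Finset.card_image_le 1
      _ ≤ 33 := by omega
  let g0 : V.Point → Option (F × F) := fun P =>
    match P with
    | .zero => none
    | .some x y _ => some (x, y)
  have hg0 : Function.Injective g0 := by
    rintro (_ | ⟨x, y, h⟩) (_ | ⟨x', y', h'⟩) hPQ
    · rfl
    · simp [g0] at hPQ
    · simp [g0] at hPQ
    · simp only [g0, Option.some.injEq, Prod.mk.injEq] at hPQ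
      obtain ⟨rfl, rfl⟩ := hPQ
      rfl
  have hmem : ∀ P : V.Point, P ∈ Submodule.torsionBy ℤ V.Point ((5 : ℕ) : ℤ) → g0 P ∈ T' := by
    intro P hP
    rw [Submodule.mem_torsionBy_iff] at hP
    by_cases hP0 : P = 0
    · subst hP0
      exact Finset.mem_insert_self _ _
    · obtain ⟨x, y, h, rfl, hroot⟩ := five_torsion_root V hP0 (by simpa using hP)
      refine Finset.mem_insert_of_mem (Finset.mem_image_of_mem _ ?_)
      refine Finset.mem_biUnion.mpr ⟨x, ?_, Finset.mem_image_of_mem _ ?_⟩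
      · rw [Multiset.mem_toFinset, mem_roots hΦ0]; exact hroot
      · rw [Multiset.mem_toFinset, mem_roots (hq0 x)]
        have heq := (Affine.equation_iff ..).mp h.1
        simp only [q, IsRoot.def, eval_sub, eval_mul, eval_pow, eval_add, eval_C, eval_X]
        linear_combination heq
  let g : Submodule.torsionBy ℤ V.Point ((5 : ℕ) : ℤ) → T' := fun P => ⟨g0 P.1, hmem P.1 P.2⟩
  have hg : Function.Injective g := by
    intro P Q hPQ
    exact Subtype.ext (hg0 (Subtype.ext_iff.mp hPQ))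
  refine ⟨Finite.of_injective g hg, ?_⟩
  calc Nat.card _ ≤ Nat.card T' := Nat.card_le_card_of_injective g hg
    _ = T'.card := by simp
    _ ≤ 33 := hT'

end FivePoint

end Fermat.Agent.S51
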