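/-
S51 piece T5a: every elliptic curve over an algebraically closed field of characteristic zero
has a nonzero point killed by 5 (via the Tate normal form `y² + (1-b)xy - by = x³ - bx²`).
-/
import Mathlib
import Fermat.Prelude.Def_FLTPrelim_GaloisRep

set_option autoImplicit false

namespace Fermat.Agent.S51

open WeierstrassCurve

section general

variable {K : Type*} [Field K]

/-- `D(x) = 4x³ + b₂x² + 2b₄x + b₆` (the square of `2y + a₁x + a₃` on the curve). -/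
def ft_D (W : WeierstrassCurve K) (x : K) : K :=
  4 * x ^ 3 + W.b₂ * x ^ 2 + 2 * W.b₄ * x + W.b₆

/-- `N(x) = x⁴ - b₄x² - 2b₆x - b₈` (the numerator of the duplication formula). -/
def ft_N (W : WeierstrassCurve K) (x : K) : K :=
  x ^ 4 - W.b₄ * x ^ 2 - 2 * W.b₆ * x - W.b₈

lemma ft_D_eq_sq (W : WeierstrassCurve K) {x y : K} (h : W.toAffine.Equation x y) :
    ft_D W x = (y - W.toAffine.negY x y) ^ 2 := by
  rw [Affine.equation_iff] at h
  simp only [ft_D, Affine.negY, b₂, b₄, b₆]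
  linear_combination (-4 : K) * h

lemma ft_dup_alg (a₁ a₂ a₃ a₄ a₆ x y d : K) (hd : d ≠ 0) (hdef : d = 2 * y + a₁ * x + a₃)
    (heq : y ^ 2 + a₁ * x * y + a₃ * y = x ^ 3 + a₂ * x ^ 2 + a₄ * x + a₆) :
    (((3 * x ^ 2 + 2 * a₂ * x + a₄ - a₁ * y) / d) ^ 2
        + a₁ * ((3 * x ^ 2 + 2 * a₂ * x + a₄ - a₁ * y) / d) - a₂ - x - x) * d ^ 2
      = x ^ 4 - (2 * a₄ + a₁ * a₃) * x ^ 2 - 2 * (a₃ ^ 2 + 4 * a₆) * x
        - (a₁ ^ 2 * a₆ + 4 * a₂ * a₆ - a₁ * a₃ * a₄ + a₂ * a₃ ^ 2 - a₄ ^ 2) := by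
  field_simp
  subst hdef
  linear_combination (-(a₁ ^ 2 + 4 * a₂ + 8 * x)) * heq

/-- Duplication formula in terms of `x`-coordinates. -/
lemma ft_double [DecidableEq K] (W : WeierstrassCurve K) {x y : K}
    (h : W.toAffine.Nonsingular x y) (hD : ft_D W x ≠ 0) :
    ∃ (x' y' : K) (h' : W.toAffine.Nonsingular x' y'),
      Affine.Point.some x y h + Affine.Point.some x y h = Affine.Point.some x' y' h' ∧
        x' * ft_D W x = ft_N W x := by
  have heq := h.1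
  have hDsq := ft_D_eq_sq W heq
  have hy : y ≠ W.toAffine.negY x y := by
    intro hy
    apply hD
    rw [hDsq, ← hy, sub_self, zero_pow two_ne_zero]
  have hy' : y - W.toAffine.negY x y ≠ 0 := sub_ne_zero.mpr hy
  refine ⟨_, _, _, Affine.Point.add_self_of_Y_ne hy, ?_⟩
  rw [Affine.slope_of_Y_ne rfl hy, hDsq]
  rw [Affine.equation_iff] at heq
  have := ft_dup_alg W.a₁ W.a₂ W.a₃ W.a₄ W.a₆ x y (y - W.toAffine.negY x y) hy'
    (by simp only [Affine.negY]; ring) heq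
  simpa only [Affine.addX, ft_N, b₄, b₆, b₈] using this

lemma ft_D_smul (W : WeierstrassCurve K) (C : VariableChange K) (x' : K) :
    ft_D (C • W) ((C.u⁻¹ : Kˣ) ^ 2 * (x' - C.r)) = (C.u⁻¹ : Kˣ) ^ 6 * ft_D W x' := by
  simp only [ft_D, variableChange_b₂, variableChange_b₄, variableChange_b₆]
  ring

lemma ft_N_smul (W : WeierstrassCurve K) (C : VariableChange K) (x' : K) :
    ft_N (C • W) ((C.u⁻¹ : Kˣ) ^ 2 * (x' - C.r))
      = (C.u⁻¹ : Kˣ) ^ 8 * (ft_N W x' - C.r * ft_D W x') := by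
  simp only [ft_N, ft_D, variableChange_b₄, variableChange_b₆, variableChange_b₈]
  ring

/-- Two `x`-coordinates exchanged by duplication yield a nonzero point killed by `5`. -/
lemma ft_exists_of_xs [DecidableEq K] [IsAlgClosed K] [CharZero K] (E : WeierstrassCurve K)
    [E.IsElliptic] (x1 x2 : K)
    (h12 : x2 * ft_D E x1 = ft_N E x1) (h21 : x1 * ft_D E x2 = ft_N E x2)
    (hD1 : ft_D E x1 ≠ 0) (hD2 : ft_D E x2 ≠ 0) (hne : x1 ≠ x2) :
    ∃ P : E.toAffine.Point, P ≠ 0 ∧ (5 : ℤ) • P = 0 := by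
  obtain ⟨y1, hy1⟩ : ∃ y1 : K, E.toAffine.Equation x1 y1 := by
    obtain ⟨s, hs⟩ := IsAlgClosed.exists_eq_mul_self
      (discrim (1 : K) (E.a₁ * x1 + E.a₃) (-(x1 ^ 3 + E.a₂ * x1 ^ 2 + E.a₄ * x1 + E.a₆)))
    obtain ⟨y, hy⟩ := exists_quadratic_eq_zero (one_ne_zero (α := K)) ⟨s, hs⟩
    refine ⟨y, ?_⟩
    rw [Affine.equation_iff]
    linear_combination hy
  have h1 : E.toAffine.Nonsingular x1 y1 := Affine.equation_iff_nonsingular.mp hy1
  obtain ⟨x', y', h', hadd, hx'⟩ := ft_double E h1 hD1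
  obtain rfl : x' = x2 := mul_right_cancel₀ hD1 (hx'.trans h12.symm)
  obtain ⟨x'', y'', h'', hadd2, hx''⟩ := ft_double E h' hD2
  obtain rfl : x'' = x1 := mul_right_cancel₀ hD2 (hx''.trans h21.symm)
  refine ⟨Affine.Point.some x'' y1 h1, Affine.Point.some_ne_zero h1, ?_⟩
  have h4 : (Affine.Point.some x'' y1 h1 + Affine.Point.some x'' y1 h1)
      + (Affine.Point.some x'' y1 h1 + Affine.Point.some x'' y1 h1)
      = Affine.Point.some x'' y'' h'' := by rw [hadd, hadd2]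
  rcases (Affine.Point.X_eq_iff (h₁ := h'') (h₂ := h1)).mp rfl with hcase | hcase
  · exfalso
    rw [hcase] at h4
    have h3 : Affine.Point.some x'' y1 h1 + Affine.Point.some x'' y1 h1
        = -Affine.Point.some x'' y1 h1 := by
      rw [eq_neg_iff_add_eq_zero]
      rw [← sub_eq_zero] at h4
      rw [← h4]
      abel
    rw [hadd, Affine.Point.neg_some] at h3
    injection h3 with hx _
    exact hne hx.symm
  · rw [hcase] at h4
    have h5 : (5 : ℤ) • Affine.Point.some x'' y1 h1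
        = (Affine.Point.some x'' y1 h1 + Affine.Point.some x'' y1 h1)
          + (Affine.Point.some x'' y1 h1 + Affine.Point.some x'' y1 h1)
          + Affine.Point.some x'' y1 h1 := by abel
    rw [h5, h4, neg_add_cancel]

end general

open Polynomial in
lemma ft_exists_b {K : Type*} [Field K] [IsAlgClosed K] (j : K) :
    ∃ b : K, (b ^ 4 - 12 * b ^ 3 + 14 * b ^ 2 + 12 * b + 1) ^ 3
      = j * (b ^ 5 * (b ^ 2 - 11 * b - 1)) := by
  have hdeg : ((X ^ 4 - 12 * X ^ 3 + 14 * X ^ 2 + 12 * X + 1) ^ 3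
      - C j * (X ^ 5 * (X ^ 2 - 11 * X - 1)) : K[X]).degree = 12 := by
    compute_degree!
  obtain ⟨b, hb⟩ := IsAlgClosed.exists_root
    ((X ^ 4 - 12 * X ^ 3 + 14 * X ^ 2 + 12 * X + 1) ^ 3
      - C j * (X ^ 5 * (X ^ 2 - 11 * X - 1)) : K[X]) (by rw [hdeg]; norm_num)
  refine ⟨b, ?_⟩
  simp only [IsRoot.def, eval_sub, eval_pow, eval_add, eval_mul, eval_X, eval_C, eval_one,
    eval_ofNat] at hb
  linear_combination hb

/-- **T5a**: an elliptic curve over an algebraically closed field of characteristic zero has a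
nonzero point killed by `5`. -/
theorem exists_five_torsion {K : Type*} [Field K] [IsAlgClosed K] [CharZero K] [DecidableEq K]
    (E : WeierstrassCurve K) [E.IsElliptic] :
    ∃ P : E.toAffine.Point, P ≠ 0 ∧ (5 : ℤ) • P = 0 := by
  obtain ⟨b, hb⟩ := ft_exists_b E.j
  have hb0 : b ≠ 0 := by
    rintro rfl
    norm_num at hb
  have hq : b ^ 2 - 11 * b - 1 ≠ 0 := by
    intro hq
    have hc4 : b ^ 4 - 12 * b ^ 3 + 14 * b ^ 2 + 12 * b + 1 = 5 * b ^ 2 := by
      linear_combination (b ^ 2 - b - 1) * hq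
    rw [hc4, hq, mul_zero, mul_zero] at hb
    have h5 : (5 : K) ≠ 0 := by norm_num
    exact mul_ne_zero h5 (pow_ne_zero 2 hb0) ((pow_eq_zero_iff three_ne_zero).mp hb)
  set T : WeierstrassCurve K := ⟨1 - b, -b, -b, 0, 0⟩ with hT
  have hb₂ : T.b₂ = b ^ 2 - 6 * b + 1 := by simp only [b₂, hT]; ring
  have hb₄ : T.b₄ = b ^ 2 - b := by simp only [b₄, hT]; ring
  have hb₆ : T.b₆ = b ^ 2 := by simp only [b₆, hT]; ring
  have hb₈ : T.b₈ = -b ^ 3 := by simp only [b₈, hT]; ring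
  have hΔ : T.Δ = b ^ 5 * (b ^ 2 - 11 * b - 1) := by
    simp only [Δ, hb₂, hb₄, hb₆, hb₈]; ring
  have hc₄ : T.c₄ = b ^ 4 - 12 * b ^ 3 + 14 * b ^ 2 + 12 * b + 1 := by
    simp only [c₄, hb₂, hb₄]; ring
  have hΔ0 : T.Δ ≠ 0 := hΔ ▸ mul_ne_zero (pow_ne_zero 5 hb0) hq
  have : T.IsElliptic := ⟨isUnit_iff_ne_zero.mpr hΔ0⟩
  have hj : T.j = E.j := by
    rw [j, Units.val_inv_eq_inv_val, coe_Δ', hc₄, hb, ← hΔ]
    field_simp
  obtain ⟨C, rfl⟩ := exists_variableChange_of_j_eq T E hj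
  have hD0 : ft_D T 0 = b ^ 2 := by simp only [ft_D, hb₂, hb₄, hb₆]; ring
  have hN0 : ft_N T 0 = b ^ 3 := by simp only [ft_N, hb₄, hb₆, hb₈]; ring
  have hDb : ft_D T b = b ^ 4 := by simp only [ft_D, hb₂, hb₄, hb₆]; ring
  have hNb : ft_N T b = 0 := by simp only [ft_N, hb₄, hb₆, hb₈]; ring
  have hu : ((C.u⁻¹ : Kˣ) : K) ≠ 0 := Units.ne_zero _
  refine ft_exists_of_xs (C • T) ((C.u⁻¹ : Kˣ) ^ 2 * (0 - C.r)) ((C.u⁻¹ : Kˣ) ^ 2 * (b - C.r))
    ?_ ?_ ?_ ?_ ?_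
  · rw [ft_D_smul, ft_N_smul, hD0, hN0]; ring
  · rw [ft_D_smul, ft_N_smul, hDb, hNb]; ring
  · rw [ft_D_smul, hD0]; exact mul_ne_zero (pow_ne_zero 6 hu) (pow_ne_zero 2 hb0)
  · rw [ft_D_smul, hDb]; exact mul_ne_zero (pow_ne_zero 6 hu) (pow_ne_zero 4 hb0)
  · intro h
    have := mul_left_cancel₀ (pow_ne_zero 2 hu) h
    apply hb0
    linear_combination -this

open WeierstrassCurve.Affine in
/-- The `5`-torsion of (the base change to `ℚ̄` of) an integral Weierstrass model with nonzero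
discriminant is nontrivial. -/
theorem nontrivial_torsionBy_five (W : WeierstrassCurve ℤ) (hΔ : W.Δ ≠ 0) :
    Nontrivial (Submodule.torsionBy ℤ
      ((W.map (Int.castRingHom ℚ))⁄(AlgebraicClosure ℚ)).Point (5 : ℕ)) := by
  have : ((W.map (Int.castRingHom ℚ)).baseChange (AlgebraicClosure ℚ)).IsElliptic := by
    refine ⟨isUnit_iff_ne_zero.mpr ?_⟩
    rw [WeierstrassCurve.baseChange, map_Δ, map_Δ]
    simpa using hΔ
  obtain ⟨P, hP0, hP5⟩ :=
    exists_five_torsion ((W.map (Int.castRingHom ℚ)).baseChange (AlgebraicClosure ℚ))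
  refine ⟨⟨P, ?_⟩, 0, fun h => hP0 (congrArg Subtype.val h)⟩
  rw [Submodule.mem_torsionBy_iff]
  exact_mod_cast hP5

end Fermat.Agent.S51
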