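import Fermat.Agent.S51.Common
import Fermat.Agent.S51.FiveTorsionExists
import Fermat.Agent.S51.FiveAlg
import Fermat.Agent.S51.FivePoint

/-!
# S51, piece T5: a reducible mod-five representation gives a rational point on `X_0(5)`

If the mod `5` representation of `W` is reducible then there is `t ≠ 0` in `ℚ` with
`c₄³ t = Δ (t² + 10 t + 5)³`.
-/

set_option autoImplicit false
open WeierstrassCurve WeierstrassCurve.Affine WeierstrassCurve.Affine.Point

namespace Fermat.Agent.S51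

theorem exists_t_of_not_irred5 (W : WeierstrassCurve ℤ) (hΔ : W.Δ ≠ 0)
    (h : ¬ W.ModRepIsIrreducible 5) :
    ∃ t : ℚ, t ≠ 0 ∧ (W.c₄ : ℚ) ^ 3 * t = (W.Δ : ℚ) * (t ^ 2 + 10 * t + 5) ^ 3 := by
  have : Fact (Nat.Prime 5) := ⟨by norm_num⟩
  obtain ⟨hfin, hcard⟩ := five_torsion_card ((EQ W)⁄(AlgebraicClosure ℚ))
  obtain ⟨P, hP0, hP5, hσ⟩ := exists_eigen_point W 5 hfin (lt_of_le_of_lt hcard (by norm_num))
    (nontrivial_torsionBy_five W hΔ) h
  have hP5' : (5 : ℤ) • P = 0 := by simpa using hP5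
  obtain ⟨x1, y1, h1, x2, y2, h2, hPe, e2, r1, r2, hne, -⟩ := five_torsion_rel _ hP0 hP5'
  have h5' : P + P + P + P + P = 0 := by rw [← hP5']; abel
  have hfix : ∀ σ : AlgebraicClosure ℚ ≃ₐ[ℚ] AlgebraicClosure ℚ,
      σ ((x1 - x2) ^ 2) = (x1 - x2) ^ 2 := by
    intro σ
    obtain ⟨k, hk⟩ := hσ σ
    obtain ⟨r, hr0, hr5, hkr⟩ : ∃ r : ℤ, 0 ≤ r ∧ r < 5 ∧ k • P = r • P := by
      refine ⟨k % 5, Int.emod_nonneg k (by norm_num), Int.emod_lt_of_pos k (by norm_num), ?_⟩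
      have hk5 : k = (k / 5) * 5 + k % 5 := by omega
      conv_lhs => rw [hk5]
      rw [add_zsmul, mul_zsmul, hP5', zsmul_zero, zero_add]
    rw [hkr] at hk
    have hkQ : σ • (P + P) = r • (P + P) := by
      rw [show σ • (P + P) = σ • P + σ • P from smul_add σ P P, hk, zsmul_add]
    obtain ⟨h1', e1'⟩ := smul_some W σ x1 y1 h1
    obtain ⟨h2', e2'⟩ := smul_some W σ x2 y2 h2
    rw [← hPe] at e1'
    rw [← e2] at e2'
    have A1 : (σ • P = P ∨ σ • P = -P) → σ x1 = x1 := by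
      intro hh
      rw [e1', hPe] at hh
      exact Point.X_eq_iff.mpr hh
    have A2 : (σ • P = P + P ∨ σ • P = -(P + P)) → σ x1 = x2 := by
      intro hh
      rw [e1', e2] at hh
      exact Point.X_eq_iff.mpr hh
    have B1 : (σ • (P + P) = P + P ∨ σ • (P + P) = -(P + P)) → σ x2 = x2 := by
      intro hh
      rw [e2', e2] at hh
      exact Point.X_eq_iff.mpr hh
    have B2 : (σ • (P + P) = P ∨ σ • (P + P) = -P) → σ x2 = x1 := by
      intro hh
      rw [e2', hPe] at hh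
      exact Point.X_eq_iff.mpr hh
    have hz : (σ x1 = x1 ∧ σ x2 = x2) ∨ (σ x1 = x2 ∧ σ x2 = x1) := by
      interval_cases r
      · exfalso
        rw [zero_zsmul, e1'] at hk
        exact Point.some_ne_zero _ hk
      · rw [one_zsmul] at hk hkQ
        exact Or.inl ⟨A1 (Or.inl hk), B1 (Or.inl hkQ)⟩
      · have hk' : σ • P = P + P := by rw [hk]; abel
        have hkQ' : σ • (P + P) = -P := by
          rw [hkQ]
          have : (2 : ℤ) • (P + P) = (P + P + P + P + P) - P := by abel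
          rw [this, h5', zero_sub]
        exact Or.inr ⟨A2 (Or.inl hk'), B2 (Or.inr hkQ')⟩
      · have hk' : σ • P = -(P + P) := by
          rw [hk]
          have : (3 : ℤ) • P = (P + P + P + P + P) - (P + P) := by abel
          rw [this, h5', zero_sub]
        have hkQ' : σ • (P + P) = P := by
          rw [hkQ]
          have : (3 : ℤ) • (P + P) = (P + P + P + P + P) + P := by abel
          rw [this, h5', zero_add]
        exact Or.inr ⟨A2 (Or.inr hk'), B2 (Or.inl hkQ')⟩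
      · have hk' : σ • P = -P := by
          rw [hk]
          have : (4 : ℤ) • P = (P + P + P + P + P) - P := by abel
          rw [this, h5', zero_sub]
        have hkQ' : σ • (P + P) = -(P + P) := by
          rw [hkQ]
          have : (4 : ℤ) • (P + P) = (P + P + P + P + P) + (P + P + P + P + P) - (P + P) := by
            abel
          rw [this, h5', zero_add, zero_sub]
        exact Or.inl ⟨A1 (Or.inr hk'), B1 (Or.inr hkQ')⟩
    rw [map_pow, map_sub]
    rcases hz with ⟨ha, hb⟩ | ⟨ha, hb⟩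
    · rw [ha, hb]
    · rw [ha, hb]; ring
  obtain ⟨r, hr⟩ := rational_of_fixed _ hfix
  have hd : x1 - x2 ≠ 0 := sub_ne_zero.mpr hne
  have hr0 : r ≠ 0 := by
    rintro rfl
    rw [_root_.map_zero] at hr
    exact pow_ne_zero 2 hd hr.symm
  have key := five_key ((EQ W)⁄(AlgebraicClosure ℚ)).b₂ ((EQ W)⁄(AlgebraicClosure ℚ)).b₄
    ((EQ W)⁄(AlgebraicClosure ℚ)).b₆ ((EQ W)⁄(AlgebraicClosure ℚ)).b₈
    ((EQ W)⁄(AlgebraicClosure ℚ)).c₄ ((EQ W)⁄(AlgebraicClosure ℚ)).c₆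
    ((EQ W)⁄(AlgebraicClosure ℚ)).Δ x1 x2 ((EQ W)⁄(AlgebraicClosure ℚ)).b_relation rfl rfl rfl
    r1 r2 hne
  have hc4 : ((EQ W)⁄(AlgebraicClosure ℚ)).c₄ = algebraMap ℚ (AlgebraicClosure ℚ) (W.c₄ : ℚ) := by
    simp [WeierstrassCurve.baseChange, EQ]
  have hΔ' : ((EQ W)⁄(AlgebraicClosure ℚ)).Δ = algebraMap ℚ (AlgebraicClosure ℚ) (W.Δ : ℚ) := by
    simp [WeierstrassCurve.baseChange, EQ]
  have key' : (W.c₄ : ℚ) * r ^ 5 = (W.Δ : ℚ) ^ 2 + 10 * (W.Δ : ℚ) * r ^ 3 + 5 * r ^ 6 := by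
    apply (algebraMap ℚ (AlgebraicClosure ℚ)).injective
    simp only [map_mul, map_add, map_pow, map_ofNat, hr]
    rw [← hc4, ← hΔ']
    linear_combination key
  have hΔq : (W.Δ : ℚ) ≠ 0 := by exact_mod_cast hΔ
  refine ⟨(W.Δ : ℚ) / r ^ 3, div_ne_zero hΔq (pow_ne_zero 3 hr0), ?_⟩
  have e : ((W.Δ : ℚ) / r ^ 3) ^ 2 + 10 * ((W.Δ : ℚ) / r ^ 3) + 5 = (W.c₄ : ℚ) / r := by
    field_simp
    linear_combination -key'
  rw [e]
  field_simp

end Fermat.Agent.S51
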