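import Mathlib

/-!
# S51, piece (D): the curve `y² = x (x - 1) (x - 81)` has no rational point with `y ≠ 0`

Fermat-style 2-descent, in integer arithmetic only.  A rational point with `y ≠ 0` has
`x = A² / E²` in lowest terms with `A² - E² = d B²`, `A² - 81 E² = d C²`, `d ∈ {1, -1, 5, -5}`.
Each such datum yields a solution of the system `a² - e² = b²`, `a² - 81 e² = c²` in positive
integers; a solution yields (by halving) a point with `y ≠ 0`, hence a strictly smaller solution.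
-/

namespace Fermat.Agent.S51

/-- Integer form of a rational point with `y ≠ 0`. -/
theorem rank0_int_form (x y : ℚ) (h : y ^ 2 = x * (x - 1) * (x - 81)) (hy : y ≠ 0) :
    ∃ w : ℤ, w ≠ 0 ∧
      (x.den : ℤ) * x.num * (x.num - x.den) * (x.num - 81 * x.den) = w ^ 2 := by
  have hn : (x.den : ℚ) ≠ 0 := Nat.cast_ne_zero.mpr x.den_nz
  have hxd : x * (x.den : ℚ) = x.num := Rat.mul_den_eq_num x
  have hq2 : (y * (x.den : ℚ) ^ 2) ^ 2 =
      (((x.den : ℤ) * x.num * (x.num - x.den) * (x.num - 81 * x.den) : ℤ) : ℚ) := by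
    rw [mul_pow, h]
    push_cast
    rw [← hxd]
    ring
  have hden : (y * (x.den : ℚ) ^ 2).den = 1 := by
    have h1 := congrArg Rat.den hq2
    rw [Rat.den_pow, Rat.den_intCast] at h1
    exact (Nat.pow_eq_one.mp h1).resolve_right (by norm_num)
  have hq : ((y * (x.den : ℚ) ^ 2).num : ℚ) = y * (x.den : ℚ) ^ 2 :=
    Rat.coe_int_num_of_den_eq_one hden
  refine ⟨(y * (x.den : ℚ) ^ 2).num, ?_, ?_⟩
  · rw [Rat.num_ne_zero]
    exact mul_ne_zero hy (pow_ne_zero 2 hn)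
  · have : (((x.den : ℤ) * x.num * (x.num - x.den) * (x.num - 81 * x.den) : ℤ) : ℚ) =
        (((y * (x.den : ℚ) ^ 2).num ^ 2 : ℤ) : ℚ) := by
      rw [← hq2]
      push_cast
      rw [hq]
    exact_mod_cast this

/-- If `u * v` is a nonzero square then `u` is `± gcd(u,v)` times a square. -/
theorem rank0_sq_factor (u v w : ℤ) (h : u * v = w ^ 2) (hw : w ≠ 0) :
    ∃ s : ℤ, s ≠ 0 ∧
      (u = (Int.gcd u v : ℤ) * s ^ 2 ∨ u = -((Int.gcd u v : ℤ) * s ^ 2)) := by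
  have hu : u ≠ 0 := by
    rintro rfl
    rw [zero_mul] at h
    exact hw ((pow_eq_zero_iff two_ne_zero).mp h.symm)
  obtain ⟨u', v', hcop, hu', hv'⟩ :=
    Int.exists_gcd_one (m := u) (n := v) (Int.gcd_pos_of_ne_zero_left v hu)
  generalize hg : (Int.gcd u v : ℤ) = g at hu' hv' ⊢
  have hg0 : g ≠ 0 := by
    rintro rfl
    rw [mul_zero] at hu'
    exact hu hu'
  have hdvd : g ^ 2 ∣ w ^ 2 := ⟨u' * v', by rw [← h, hu', hv']; ring⟩
  obtain ⟨w', rfl⟩ := (Int.pow_dvd_pow_iff two_ne_zero).mp hdvd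
  have h' : u' * v' = w' ^ 2 := by
    have h2 : g ^ 2 * (u' * v') = g ^ 2 * w' ^ 2 := by
      rw [← mul_pow, ← h, hu', hv']; ring
    exact mul_left_cancel₀ (pow_ne_zero 2 hg0) h2
  obtain ⟨s, hs⟩ := Int.sq_of_isCoprime (Int.isCoprime_iff_gcd_eq_one.mpr hcop) h'
  have hu'0 : u' ≠ 0 := by
    rintro rfl
    rw [zero_mul] at hu'
    exact hu hu'
  refine ⟨s, ?_, ?_⟩
  · rintro rfl
    rcases hs with hs | hs <;> exact hu'0 (by rw [hs]; ring)
  · rcases hs with hs | hs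
    · left; rw [hu', hs]; ring
    · right; rw [hu', hs]; ring

theorem rank0_div81 (g : ℕ) (hg : g ∣ 81) :
    ∃ d k : ℕ, (d = 1 ∨ d = 3) ∧ k ≠ 0 ∧ g = d * k ^ 2 := by
  have hmem : g ∈ Nat.divisors 81 := Nat.mem_divisors.mpr ⟨hg, by norm_num⟩
  have h81 : Nat.divisors 81 = {1, 3, 9, 27, 81} := by decide
  rw [h81] at hmem
  simp only [Finset.mem_insert, Finset.mem_singleton] at hmem
  rcases hmem with rfl | rfl | rfl | rfl | rfl
  · exact ⟨1, 1, by norm_num, by norm_num, by norm_num⟩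
  · exact ⟨3, 1, by norm_num, by norm_num, by norm_num⟩
  · exact ⟨1, 3, by norm_num, by norm_num, by norm_num⟩
  · exact ⟨3, 3, by norm_num, by norm_num, by norm_num⟩
  · exact ⟨1, 9, by norm_num, by norm_num, by norm_num⟩

theorem rank0_div80 (g : ℕ) (hg : g ∣ 80) :
    ∃ d k : ℕ, (d = 1 ∨ d = 2 ∨ d = 5 ∨ d = 10) ∧ k ≠ 0 ∧ g = d * k ^ 2 := by
  have hmem : g ∈ Nat.divisors 80 := Nat.mem_divisors.mpr ⟨hg, by norm_num⟩
  have h80 : Nat.divisors 80 = {1, 2, 4, 5, 8, 10, 16, 20, 40, 80} := by decide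
  rw [h80] at hmem
  simp only [Finset.mem_insert, Finset.mem_singleton] at hmem
  rcases hmem with rfl | rfl | rfl | rfl | rfl | rfl | rfl | rfl | rfl | rfl
  · exact ⟨1, 1, by norm_num, by norm_num, by norm_num⟩
  · exact ⟨2, 1, by norm_num, by norm_num, by norm_num⟩
  · exact ⟨1, 2, by norm_num, by norm_num, by norm_num⟩
  · exact ⟨5, 1, by norm_num, by norm_num, by norm_num⟩
  · exact ⟨2, 2, by norm_num, by norm_num, by norm_num⟩
  · exact ⟨10, 1, by norm_num, by norm_num, by norm_num⟩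
  · exact ⟨1, 4, by norm_num, by norm_num, by norm_num⟩
  · exact ⟨5, 2, by norm_num, by norm_num, by norm_num⟩
  · exact ⟨10, 2, by norm_num, by norm_num, by norm_num⟩
  · exact ⟨5, 4, by norm_num, by norm_num, by norm_num⟩

theorem rank0_three_dvd_of_sq_add_sq (x y : ℤ) (h : (3 : ℤ) ∣ x ^ 2 + y ^ 2) :
    (3 : ℤ) ∣ x ∧ (3 : ℤ) ∣ y := by
  have key : ∀ u v : ZMod 3, u ^ 2 + v ^ 2 = 0 → u = 0 ∧ v = 0 := by decide
  have h' : ((x : ZMod 3)) ^ 2 + (y : ZMod 3) ^ 2 = 0 := by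
    have h0 := (ZMod.intCast_zmod_eq_zero_iff_dvd (x ^ 2 + y ^ 2) 3).mpr (by exact_mod_cast h)
    push_cast at h0
    exact h0
  obtain ⟨hx, hy⟩ := key _ _ h'
  exact ⟨by exact_mod_cast (ZMod.intCast_zmod_eq_zero_iff_dvd x 3).mp hx,
    by exact_mod_cast (ZMod.intCast_zmod_eq_zero_iff_dvd y 3).mp hy⟩

/-- The case `d₁ = 3` is impossible. -/
theorem rank0_kill3 (D a E b c k : ℤ) (hD : D = 3 * k + 1 ∨ D = 3 * k + 2)
    (hE : ¬ (3 : ℤ) ∣ E) (h1 : 3 * a ^ 2 - E ^ 2 = D * b ^ 2)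
    (h2 : 3 * D * (3 * a ^ 2 - 81 * E ^ 2) = c ^ 2) : False := by
  rcases hD with rfl | rfl
  · exact hE (rank0_three_dvd_of_sq_add_sq E b
      ⟨a ^ 2 - k * b ^ 2, by linear_combination -h1⟩).1
  · have hc : (3 : ℤ) ∣ c := by
      have h3 : (3 : ℤ) ∣ c ^ 2 := ⟨(3 * k + 2) * (3 * a ^ 2 - 81 * E ^ 2), by rw [← h2]; ring⟩
      exact Int.prime_three.dvd_of_dvd_pow h3
    obtain ⟨c1, rfl⟩ := hc
    have h3 : c1 ^ 2 = (3 * k + 2) * (a ^ 2 - 27 * E ^ 2) := by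
      have h9 : (9 : ℤ) * c1 ^ 2 = 9 * ((3 * k + 2) * (a ^ 2 - 27 * E ^ 2)) := by
        linear_combination -h2
      exact mul_left_cancel₀ (by norm_num) h9
    obtain ⟨⟨a1, rfl⟩, ⟨c2, rfl⟩⟩ := rank0_three_dvd_of_sq_add_sq a c1
      ⟨(k + 1) * a ^ 2 - 9 * (3 * k + 2) * E ^ 2, by linear_combination h3⟩
    have h4 : c2 ^ 2 = (3 * k + 2) * (a1 ^ 2 - 3 * E ^ 2) := by
      have h9 : (9 : ℤ) * c2 ^ 2 = 9 * ((3 * k + 2) * (a1 ^ 2 - 3 * E ^ 2)) := by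
        linear_combination h3
      exact mul_left_cancel₀ (by norm_num) h9
    obtain ⟨⟨a2, rfl⟩, ⟨c3, rfl⟩⟩ := rank0_three_dvd_of_sq_add_sq a1 c2
      ⟨(k + 1) * a1 ^ 2 - (3 * k + 2) * E ^ 2, by linear_combination h4⟩
    have h5 : 3 * c3 ^ 2 = (3 * k + 2) * (3 * a2 ^ 2 - E ^ 2) := by
      have h9 : (3 : ℤ) * (3 * c3 ^ 2) = 3 * ((3 * k + 2) * (3 * a2 ^ 2 - E ^ 2)) := by
        linear_combination h4
      exact mul_left_cancel₀ (by norm_num) h9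
    exact hE (rank0_three_dvd_of_sq_add_sq E E
      ⟨(3 * k + 2) * a2 ^ 2 - k * E ^ 2 - c3 ^ 2, by linear_combination h5⟩).1

theorem rank0_sq_mod8 (x : ℤ) : x ^ 2 % 8 = 0 ∨ x ^ 2 % 8 = 1 ∨ x ^ 2 % 8 = 4 := by
  have key : ∀ u : ZMod 8, u ^ 2 = 0 ∨ u ^ 2 = 1 ∨ u ^ 2 = 4 := by decide
  have h := key (x : ZMod 8)
  have e0 : ((x ^ 2 : ℤ) : ZMod 8) = (x : ZMod 8) ^ 2 := by push_cast; ring
  rcases h with h | h | h
  · left
    rw [← e0] at h
    have := (ZMod.intCast_zmod_eq_zero_iff_dvd (x ^ 2) 8).mp h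
    omega
  · right; left
    rw [← e0] at h
    have h1 : ((x ^ 2 - 1 : ℤ) : ZMod 8) = 0 := by push_cast; rw [← e0] at *; simp [h]
    have := (ZMod.intCast_zmod_eq_zero_iff_dvd (x ^ 2 - 1) 8).mp h1
    omega
  · right; right
    rw [← e0] at h
    have h1 : ((x ^ 2 - 4 : ℤ) : ZMod 8) = 0 := by push_cast; rw [← e0] at *; simp [h]
    have := (ZMod.intCast_zmod_eq_zero_iff_dvd (x ^ 2 - 4) 8).mp h1
    omega

theorem rank0_sq_mod8_odd (x : ℤ) (h : x % 2 = 1) : x ^ 2 % 8 = 1 := by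
  obtain ⟨k, rfl⟩ : ∃ k, x = 2 * k + 1 := ⟨x / 2, by omega⟩
  obtain ⟨r, hr⟩ := Int.even_mul_succ_self k
  have h2 : (2 * k + 1) ^ 2 = 8 * r + 1 := by linear_combination 4 * hr
  omega

theorem rank0_even_of_sq (x : ℤ) (h : x ^ 2 % 4 = 0) : x % 2 = 0 := by
  by_contra hx
  have h2 := rank0_sq_mod8_odd x (by omega)
  omega

theorem rank0_sq_mod2 (x : ℤ) : x ^ 2 % 2 = x % 2 := by
  obtain ⟨k, hk⟩ : ∃ k, x = 2 * k ∨ x = 2 * k + 1 := ⟨x / 2, by omega⟩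
  rcases hk with rfl | rfl
  · have h2 : (2 * k) ^ 2 = 2 * (2 * k ^ 2) := by ring
    omega
  · have h2 : (2 * k + 1) ^ 2 = 2 * (2 * k ^ 2 + 2 * k) + 1 := by ring
    omega

/-- The cases `d₂ = 2, 10` are impossible. -/
theorem rank0_kill2 (D a E b c : ℤ) (hD : D = 2 ∨ D = -2 ∨ D = 10 ∨ D = -10)
    (ha : a % 2 = 1) (hE : E % 2 = 1) (h1 : a ^ 2 - E ^ 2 = D * b ^ 2)
    (h2 : D * (a ^ 2 - 81 * E ^ 2) = c ^ 2) : False := by
  have ha8 := rank0_sq_mod8_odd a ha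
  have hE8 := rank0_sq_mod8_odd E hE
  have hb : b % 2 = 0 := by
    apply rank0_even_of_sq
    have hb8 := rank0_sq_mod8 b
    rcases hD with rfl | rfl | rfl | rfl <;> omega
  obtain ⟨b1, rfl⟩ : ∃ b1, b = 2 * b1 := ⟨b / 2, by omega⟩
  have hb2 : (2 * b1) ^ 2 = 4 * b1 ^ 2 := by ring
  rw [hb2] at h1
  have hc : c % 2 = 0 := by
    apply rank0_even_of_sq
    rcases hD with rfl | rfl | rfl | rfl <;> omega
  obtain ⟨c1, rfl⟩ : ∃ c1, c = 2 * c1 := ⟨c / 2, by omega⟩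
  have hc2 : (2 * c1) ^ 2 = 4 * c1 ^ 2 := by ring
  rw [hc2] at h2
  have hc1 : c1 % 2 = 0 := by
    apply rank0_even_of_sq
    rcases hD with rfl | rfl | rfl | rfl <;> omega
  obtain ⟨c2, rfl⟩ : ∃ c2, c1 = 2 * c2 := ⟨c1 / 2, by omega⟩
  have hc3 : (2 * c2) ^ 2 = 4 * c2 ^ 2 := by ring
  rw [hc3] at h2
  have hb8 := rank0_sq_mod8 b1
  have hc8 := rank0_sq_mod8 c2
  rcases hD with rfl | rfl | rfl | rfl <;> omega

theorem rank0_factor81 (u v w : ℤ) (h : u * v = w ^ 2) (hw : w ≠ 0) (hu : 0 < u)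
    (hdvd : ∀ g : ℤ, g ∣ u → g ∣ v → g ∣ 81) :
    ∃ d a : ℤ, (d = 1 ∨ d = 3) ∧ 0 < a ∧ u = d * a ^ 2 := by
  obtain ⟨s, hs0, hs⟩ := rank0_sq_factor u v w h hw
  have hg : (Int.gcd u v : ℤ) ∣ 81 := hdvd _ (Int.gcd_dvd_left _ _) (Int.gcd_dvd_right _ _)
  have hg' : Int.gcd u v ∣ 81 := by exact_mod_cast hg
  obtain ⟨d, k, hd, hk, hgk⟩ := rank0_div81 _ hg'
  rw [hgk] at hs
  refine ⟨(d : ℤ), |(k : ℤ) * s|, ?_, ?_, ?_⟩
  · rcases hd with rfl | rfl <;> simp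
  · exact abs_pos.mpr (mul_ne_zero (by exact_mod_cast hk) hs0)
  · rcases hs with hs | hs
    · rw [sq_abs, hs]; push_cast; ring
    · exfalso
      have h0 : (0 : ℤ) ≤ ((d * k ^ 2 : ℕ) : ℤ) * s ^ 2 := by positivity
      linarith

theorem rank0_factor80 (u v w : ℤ) (h : u * v = w ^ 2) (hw : w ≠ 0)
    (hdvd : ∀ g : ℤ, g ∣ u → g ∣ v → g ∣ 80) :
    ∃ D b : ℤ, (D = 1 ∨ D = 2 ∨ D = 5 ∨ D = 10 ∨ D = -1 ∨ D = -2 ∨ D = -5 ∨ D = -10) ∧
      0 < b ∧ u = D * b ^ 2 := by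
  obtain ⟨s, hs0, hs⟩ := rank0_sq_factor u v w h hw
  have hg : (Int.gcd u v : ℤ) ∣ 80 := hdvd _ (Int.gcd_dvd_left _ _) (Int.gcd_dvd_right _ _)
  have hg' : Int.gcd u v ∣ 80 := by exact_mod_cast hg
  obtain ⟨d, k, hd, hk, hgk⟩ := rank0_div80 _ hg'
  rw [hgk] at hs
  have hb : 0 < |(k : ℤ) * s| := abs_pos.mpr (mul_ne_zero (by exact_mod_cast hk) hs0)
  rcases hs with hs | hs
  · refine ⟨(d : ℤ), |(k : ℤ) * s|, ?_, hb, ?_⟩
    · rcases hd with rfl | rfl | rfl | rfl <;> simp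
    · rw [sq_abs, hs]; push_cast; ring
  · refine ⟨-(d : ℤ), |(k : ℤ) * s|, ?_, hb, ?_⟩
    · rcases hd with rfl | rfl | rfl | rfl <;> simp
    · rw [sq_abs, hs]; push_cast; ring

/-- Raw factorisation: `n = E²`, `m = d₁ a²`, `m - n = D b²`, `d₁ D (m - 81 n) = c²`. -/
theorem rank0_raw (m n w : ℤ) (hn : 0 < n) (hcop : IsCoprime m n) (hw : w ≠ 0)
    (h : n * m * (m - n) * (m - 81 * n) = w ^ 2) :
    ∃ d1 D a E b c : ℤ, (d1 = 1 ∨ d1 = 3) ∧
      (D = 1 ∨ D = 2 ∨ D = 5 ∨ D = 10 ∨ D = -1 ∨ D = -2 ∨ D = -5 ∨ D = -10) ∧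
      0 < a ∧ 0 < E ∧ 0 < b ∧ c ≠ 0 ∧ n = E ^ 2 ∧ m = d1 * a ^ 2 ∧
      m - n = D * b ^ 2 ∧ d1 * D * (m - 81 * n) = c ^ 2 := by
  have hc1 : IsCoprime n (m - n) := by
    have h0 := hcop.symm.add_mul_left_right (-1)
    have e : m + n * -1 = m - n := by ring
    rwa [e] at h0
  have hc2 : IsCoprime n (m - 81 * n) := by
    have h0 := hcop.symm.add_mul_left_right (-81)
    have e : m + n * -81 = m - 81 * n := by ring
    rwa [e] at h0
  have hcP : IsCoprime n (m * (m - n) * (m - 81 * n)) :=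
    (hcop.symm.mul_right hc1).mul_right hc2
  obtain ⟨E0, hE0⟩ := Int.sq_of_isCoprime hcP (c := w) (by rw [← h]; ring)
  have hnE0 : n = E0 ^ 2 := by
    rcases hE0 with hE0 | hE0
    · exact hE0
    · exfalso
      have := sq_nonneg E0
      linarith
  have hE0ne : E0 ≠ 0 := by
    rintro rfl
    rw [hnE0] at hn
    norm_num at hn
  obtain ⟨E, hEpos, hnE⟩ : ∃ E : ℤ, 0 < E ∧ n = E ^ 2 :=
    ⟨|E0|, abs_pos.mpr hE0ne, by rw [sq_abs]; exact hnE0⟩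
  subst hnE
  have hE2 : (0 : ℤ) < E ^ 2 := hn
  have hEw : E ∣ w := (Int.pow_dvd_pow_iff two_ne_zero).mp
    ⟨m * (m - E ^ 2) * (m - 81 * E ^ 2), by rw [← h]; ring⟩
  obtain ⟨v, rfl⟩ := hEw
  have hv : v ≠ 0 := fun hv0 => hw (by rw [hv0, mul_zero])
  have hP : m * (m - E ^ 2) * (m - 81 * E ^ 2) = v ^ 2 := by
    have h9 : E ^ 2 * (m * (m - E ^ 2) * (m - 81 * E ^ 2)) = E ^ 2 * v ^ 2 := by
      linear_combination h
    exact mul_left_cancel₀ hE2.ne' h9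
  have hv2 : 0 < v ^ 2 := by positivity
  have hP1 : m * ((m - E ^ 2) * (m - 81 * E ^ 2)) = v ^ 2 := by rw [← hP]; ring
  have hP2 : (m - E ^ 2) * (m * (m - 81 * E ^ 2)) = v ^ 2 := by rw [← hP]; ring
  have hm : 0 < m := by
    by_contra hm'
    push Not at hm'
    have h1 : 0 < (m - E ^ 2) * (m - 81 * E ^ 2) :=
      mul_pos_of_neg_of_neg (by linarith) (by linarith)
    have h2 : m * ((m - E ^ 2) * (m - 81 * E ^ 2)) ≤ 0 :=
      mul_nonpos_of_nonpos_of_nonneg hm' h1.le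
    linarith
  obtain ⟨d1, a, hd1, ha, hma⟩ :=
    rank0_factor81 m ((m - E ^ 2) * (m - 81 * E ^ 2)) v hP1 hv hm (by
      intro g hg1 hg2
      have hd3 : g ∣ 81 * (E ^ 2) ^ 2 := by
        have e : 81 * (E ^ 2) ^ 2 =
            (m - E ^ 2) * (m - 81 * E ^ 2) - m * (m - 82 * E ^ 2) := by ring
        rw [e]
        exact dvd_sub hg2 (hg1.mul_right _)
      exact ((hcop.of_isCoprime_of_dvd_left hg1).pow_right).dvd_of_dvd_mul_right hd3)
  obtain ⟨D, b, hD, hb, hmb⟩ :=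
    rank0_factor80 (m - E ^ 2) (m * (m - 81 * E ^ 2)) v hP2 hv (by
      intro g hg1 hg2
      have hd3 : g ∣ 80 * (E ^ 2) ^ 2 := by
        have e : 80 * (E ^ 2) ^ 2 =
            (m - E ^ 2) * (m - 80 * E ^ 2) - m * (m - 81 * E ^ 2) := by ring
        rw [e]
        exact dvd_sub (hg1.mul_right _) hg2
      have hc3 : IsCoprime (m - E ^ 2) (E ^ 2) := hc1.symm
      exact ((hc3.of_isCoprime_of_dvd_left hg1).pow_right).dvd_of_dvd_mul_right hd3)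
  have hab : a * b ∣ v := (Int.pow_dvd_pow_iff two_ne_zero).mp
    ⟨d1 * D * (m - 81 * E ^ 2), by
      linear_combination -hP + m * (m - 81 * E ^ 2) * hmb
        + D * b ^ 2 * (m - 81 * E ^ 2) * hma⟩
  obtain ⟨c, rfl⟩ := hab
  have hc : c ≠ 0 := fun hc0 => hv (by rw [hc0, mul_zero])
  have hc' : d1 * D * (m - 81 * E ^ 2) = c ^ 2 := by
    have h9 : (a * b) ^ 2 * (d1 * D * (m - 81 * E ^ 2)) = (a * b) ^ 2 * c ^ 2 := by
      linear_combination hP - m * (m - 81 * E ^ 2) * hmb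
        - D * b ^ 2 * (m - 81 * E ^ 2) * hma
    exact mul_left_cancel₀ (pow_ne_zero 2 (mul_ne_zero ha.ne' hb.ne')) h9
  exact ⟨d1, D, a, E, b, c, hd1, hD, ha, hEpos, hb, hc, rfl, hma, hmb, hc'⟩

/-- Classification of the integer form. -/
theorem rank0_classify (m n w : ℤ) (hn : 0 < n) (hcop : IsCoprime m n) (hw : w ≠ 0)
    (h : n * m * (m - n) * (m - 81 * n) = w ^ 2) :
    ∃ A E B C d : ℤ, 0 < A ∧ 0 < E ∧ 0 < B ∧ 0 < C ∧ m = A ^ 2 ∧ n = E ^ 2 ∧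
      (d = 1 ∨ d = -1 ∨ d = 5 ∨ d = -5) ∧
      A ^ 2 - E ^ 2 = d * B ^ 2 ∧ A ^ 2 - 81 * E ^ 2 = d * C ^ 2 := by
  obtain ⟨d1, D, a, E, b, c, hd1, hD, ha, hE, hb, hc, rfl, rfl, hmb, hc'⟩ :=
    rank0_raw m n w hn hcop hw h
  have p5 : Prime (5 : ℤ) := Int.prime_iff_natAbs_prime.mpr (by norm_num)
  rcases hd1 with rfl | rfl
  · -- d1 = 1
    rw [one_mul] at hmb hcop
    rw [one_mul, one_mul] at hc'
    -- parity facts used for D = ±2, ±10
    have hpar : ∀ D' : ℤ, D = 2 * D' → a % 2 = 1 ∧ E % 2 = 1 := by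
      intro D' hD'
      have h1 := rank0_sq_mod2 a
      have h2 := rank0_sq_mod2 E
      have h3 : a ^ 2 - E ^ 2 = 2 * (D' * b ^ 2) := by rw [hmb, hD']; ring
      have h4 : ¬ (a % 2 = 0 ∧ E % 2 = 0) := by
        rintro ⟨ha0, hE0⟩
        have hu := hcop.isUnit_of_dvd' (x := 2)
          (dvd_pow (Int.dvd_of_emod_eq_zero ha0) two_ne_zero)
          (dvd_pow (Int.dvd_of_emod_eq_zero hE0) two_ne_zero)
        rw [Int.isUnit_iff] at hu
        omega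
      omega
    have hCpos : ∀ c0 : ℤ, c0 ≠ 0 → 0 < |c0| := fun c0 h0 => abs_pos.mpr h0
    rcases hD with rfl | rfl | rfl | rfl | rfl | rfl | rfl | rfl
    · -- D = 1
      exact ⟨a, E, b, |c|, 1, ha, hE, hb, hCpos c hc, by ring, rfl, by norm_num,
        by rw [hmb], by rw [sq_abs, ← hc']; ring⟩
    · -- D = 2
      exfalso
      obtain ⟨h1, h2⟩ := hpar 1 (by norm_num)
      exact rank0_kill2 2 a E b c (by norm_num) h1 h2 hmb hc'
    · -- D = 5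
      have h5 : (5 : ℤ) ∣ c := p5.dvd_of_dvd_pow ⟨a ^ 2 - 81 * E ^ 2, hc'.symm⟩
      obtain ⟨c0, rfl⟩ := h5
      have hc0 : c0 ≠ 0 := fun h0 => hc (by rw [h0, mul_zero])
      refine ⟨a, E, b, |c0|, 5, ha, hE, hb, hCpos c0 hc0, by ring, rfl, by norm_num,
        by rw [hmb], ?_⟩
      rw [sq_abs]
      linarith
    · -- D = 10
      exfalso
      obtain ⟨h1, h2⟩ := hpar 5 (by norm_num)
      exact rank0_kill2 10 a E b c (by norm_num) h1 h2 hmb hc'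
    · -- D = -1
      refine ⟨a, E, b, |c|, -1, ha, hE, hb, hCpos c hc, by ring, rfl, by norm_num,
        by rw [hmb], ?_⟩
      rw [sq_abs]
      linarith
    · -- D = -2
      exfalso
      obtain ⟨h1, h2⟩ := hpar (-1) (by norm_num)
      exact rank0_kill2 (-2) a E b c (by norm_num) h1 h2 hmb hc'
    · -- D = -5
      have h5 : (5 : ℤ) ∣ c := p5.dvd_of_dvd_pow ⟨-(a ^ 2 - 81 * E ^ 2), by rw [← hc']; ring⟩
      obtain ⟨c0, rfl⟩ := h5
      have hc0 : c0 ≠ 0 := fun h0 => hc (by rw [h0, mul_zero])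
      refine ⟨a, E, b, |c0|, -5, ha, hE, hb, hCpos c0 hc0, by ring, rfl, by norm_num,
        by rw [hmb], ?_⟩
      rw [sq_abs]
      linarith
    · -- D = -10
      exfalso
      obtain ⟨h1, h2⟩ := hpar (-5) (by norm_num)
      exact rank0_kill2 (-10) a E b c (by norm_num) h1 h2 hmb hc'
  · -- d1 = 3
    exfalso
    have hE3 : ¬ (3 : ℤ) ∣ E := by
      intro h3
      have hu := hcop.isUnit_of_dvd' (x := 3) (dvd_mul_right 3 _) (dvd_pow h3 two_ne_zero)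
      rw [Int.isUnit_iff] at hu
      omega
    have hD3 : D % 3 = 1 ∨ D % 3 = 2 := by
      rcases hD with rfl | rfl | rfl | rfl | rfl | rfl | rfl | rfl <;> norm_num
    exact rank0_kill3 D a E b c (D / 3) (by omega) hE3 hmb hc'

/-- Classification of rational points with `y ≠ 0`. -/
theorem rank0_classifyQ (x y : ℚ) (h : y ^ 2 = x * (x - 1) * (x - 81)) (hy : y ≠ 0) :
    ∃ A E B C d : ℤ, 0 < A ∧ 0 < E ∧ 0 < B ∧ 0 < C ∧ x.num = A ^ 2 ∧ (x.den : ℤ) = E ^ 2 ∧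
      (d = 1 ∨ d = -1 ∨ d = 5 ∨ d = -5) ∧
      A ^ 2 - E ^ 2 = d * B ^ 2 ∧ A ^ 2 - 81 * E ^ 2 = d * C ^ 2 := by
  obtain ⟨w, hw, hw2⟩ := rank0_int_form x y h hy
  exact rank0_classify x.num x.den w (by exact_mod_cast x.den_pos) (Rat.isCoprime_num_den x) hw hw2

/-- The auxiliary system: `a² - e² = b²`, `a² - 81 e² = c²` in positive integers. -/
def Rank0Sol (a e b c : ℤ) : Prop :=
  0 < a ∧ 0 < e ∧ 0 < b ∧ 0 < c ∧ a ^ 2 - e ^ 2 = b ^ 2 ∧ a ^ 2 - 81 * e ^ 2 = c ^ 2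

/-- Every classified point gives a solution of the auxiliary system. -/
theorem rank0Sol_of_classified (A E B C d : ℤ) (hA : 0 < A) (hE : 0 < E) (hB : 0 < B)
    (hC : 0 < C) (hd : d = 1 ∨ d = -1 ∨ d = 5 ∨ d = -5)
    (h1 : A ^ 2 - E ^ 2 = d * B ^ 2) (h2 : A ^ 2 - 81 * E ^ 2 = d * C ^ 2) :
    (d = 1 ∧ Rank0Sol A E B C) ∨ (d = -1 ∧ Rank0Sol (9 * E) A C (9 * B)) ∨
      (d = 5 ∧ Rank0Sol (9 * B) C (4 * A) (36 * E)) ∨
      (d = -5 ∧ Rank0Sol C B (4 * E) (4 * A)) := by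
  rcases hd with rfl | rfl | rfl | rfl
  · left
    exact ⟨rfl, hA, hE, hB, hC, by linarith, by linarith⟩
  · right; left
    exact ⟨rfl, by linarith, hA, hC, by linarith, by linarith, by linarith⟩
  · right; right; left
    exact ⟨rfl, by linarith, hC, by linarith, by linarith, by linarith, by linarith⟩
  · right; right; right
    exact ⟨rfl, hC, hB, by linarith, by linarith, by linarith, by linarith⟩

theorem rank0Sol_bounds {a e b c : ℤ} (hS : Rank0Sol a e b c) :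
    81 ≤ a ∧ b < a ∧ c < a := by
  obtain ⟨ha, he, hb, hc, h1, h2⟩ := hS
  have hba : b < a := by nlinarith
  have hca : c < a := by nlinarith
  have h9 : 9 * e < a := by nlinarith
  have h3 : 2 * a ≤ e ^ 2 + 1 := by nlinarith [mul_nonneg (show (0:ℤ) ≤ a - b - 1 by linarith) (show (0:ℤ) ≤ a + b - 1 by linarith)]
  have h4 : 19 ≤ e := by
    by_contra h5
    push Not at h5
    nlinarith [mul_nonneg he.le (show (0:ℤ) ≤ 18 - e by linarith)]
  exact ⟨by linarith, hba, hca⟩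

/-- The halving point attached to a solution of the auxiliary system. -/
theorem rank0Sol_point {a e b c : ℤ} (hS : Rank0Sol a e b c) :
    ∃ y : ℚ, y ≠ 0 ∧ y ^ 2 = (Rat.divInt (a + c) (a - b)) *
      ((Rat.divInt (a + c) (a - b)) - 1) * ((Rat.divInt (a + c) (a - b)) - 81) := by
  obtain ⟨h81, hba, hca⟩ := rank0Sol_bounds hS
  obtain ⟨ha, he, hb, hc, h1, h2⟩ := hS
  have hDq : (a : ℚ) - b ≠ 0 := by
    have : (0 : ℚ) < (a : ℚ) - b := by exact_mod_cast (show (0 : ℤ) < a - b by linarith)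
    exact this.ne'
  have heq : (e : ℚ) ≠ 0 := by exact_mod_cast he.ne'
  have hac : (a : ℚ) + c ≠ 0 := by
    have : (0 : ℚ) < (a : ℚ) + c := by exact_mod_cast (show (0 : ℤ) < a + c by linarith)
    exact this.ne'
  have hbc : (b : ℚ) + c ≠ 0 := by
    have : (0 : ℚ) < (b : ℚ) + c := by exact_mod_cast (show (0 : ℤ) < b + c by linarith)
    exact this.ne'
  have h1q : (a : ℚ) ^ 2 - (e : ℚ) ^ 2 = (b : ℚ) ^ 2 := by exact_mod_cast h1
  have h2q : (a : ℚ) ^ 2 - 81 * (e : ℚ) ^ 2 = (c : ℚ) ^ 2 := by exact_mod_cast h2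
  have hx : (Rat.divInt (a + c) (a - b) : ℚ) = ((a : ℚ) + c) / ((a : ℚ) - b) := by
    rw [Rat.divInt_eq_div]; push_cast; rfl
  refine ⟨((a : ℚ) + c) * (b + c) / (((a : ℚ) - b) * e), ?_, ?_⟩
  · exact div_ne_zero (mul_ne_zero hac hbc) (mul_ne_zero hDq heq)
  · rw [hx]
    have hx1 : ((a : ℚ) + c) / ((a : ℚ) - b) - 1 = ((b : ℚ) + c) / ((a : ℚ) - b) := by
      field_simp; ring
    have hx81 : ((a : ℚ) + c) / ((a : ℚ) - b) - 81 =
        ((c : ℚ) - 80 * a + 81 * b) / ((a : ℚ) - b) := by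
      field_simp; ring
    rw [hx1, hx81, div_mul_div_comm, div_mul_div_comm, div_pow,
      div_eq_div_iff (pow_ne_zero 2 (mul_ne_zero hDq heq))
        (mul_ne_zero (mul_ne_zero hDq hDq) hDq)]
    linear_combination ((a : ℚ) + c) * (b + c) * (a - b) ^ 2 * (a + c) * h1q
      - ((a : ℚ) + c) * (b + c) * (a - b) ^ 3 * h2q

theorem rank0Sol_descent {a e b c : ℤ} (hS : Rank0Sol a e b c) :
    ∃ a' e' b' c' : ℤ, Rank0Sol a' e' b' c' ∧ a' < a := by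
  obtain ⟨y, hy0, hy⟩ := rank0Sol_point hS
  obtain ⟨h81, hba, hca⟩ := rank0Sol_bounds hS
  obtain ⟨ha, he, hb, hc, h1, h2⟩ := hS
  obtain ⟨A, E, B, C, d, hA, hE, hB, hC, hnum, hden, hd, e1, e2⟩ :=
    rank0_classifyQ _ y hy hy0
  have hA2 : A ^ 2 ≤ a + c := by
    rw [← hnum]
    exact Int.le_of_dvd (by linarith) (Rat.num_dvd (a + c) (show a - b ≠ 0 by linarith))
  have hE2 : E ^ 2 ≤ a - b := by
    rw [← hden]
    exact Int.le_of_dvd (by linarith) (Rat.den_dvd (a + c) (a - b))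
  have haa : 81 * a ≤ a * a := mul_le_mul_of_nonneg_right h81 ha.le
  have hE0 : 0 < E ^ 2 := by positivity
  rcases rank0Sol_of_classified A E B C d hA hE hB hC hd e1 e2 with
    ⟨rfl, hS'⟩ | ⟨rfl, hS'⟩ | ⟨rfl, hS'⟩ | ⟨rfl, hS'⟩
  · refine ⟨A, E, B, C, hS', ?_⟩
    by_contra hge
    push Not at hge
    have h3 : a * a ≤ A * A := mul_le_mul hge hge ha.le hA.le
    nlinarith
  · refine ⟨9 * E, A, C, 9 * B, hS', ?_⟩
    by_contra hge
    push Not at hge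
    have h3 : a * a ≤ (9 * E) * (9 * E) := mul_le_mul hge hge ha.le (by linarith)
    nlinarith
  · refine ⟨9 * B, C, 4 * A, 36 * E, hS', ?_⟩
    by_contra hge
    push Not at hge
    have h3 : a * a ≤ (9 * B) * (9 * B) := mul_le_mul hge hge ha.le (by linarith)
    nlinarith
  · refine ⟨C, B, 4 * E, 4 * A, hS', ?_⟩
    by_contra hge
    push Not at hge
    have h3 : a * a ≤ C * C := mul_le_mul hge hge ha.le hC.le
    nlinarith

theorem rank0Sol_false : ∀ (N : ℕ) (a e b c : ℤ), a < N → ¬ Rank0Sol a e b c := by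
  intro N
  induction N with
  | zero =>
    intro a e b c h hS
    have := hS.1
    simp at h
    omega
  | succ N ih =>
    intro a e b c h hS
    obtain ⟨a', e', b', c', hS', hlt⟩ := rank0Sol_descent hS
    exact ih a' e' b' c' (by push_cast at h; omega) hS'

/-- The elliptic curve `y² = x (x - 1) (x - 81)` has no rational point with `y ≠ 0`. -/
theorem rank0 (x y : ℚ) (h : y ^ 2 = x * (x - 1) * (x - 81)) : y = 0 := by
  by_contra hy
  obtain ⟨A, E, B, C, d, hA, hE, hB, hC, -, -, hd, e1, e2⟩ := rank0_classifyQ x y h hy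
  rcases rank0Sol_of_classified A E B C d hA hE hB hC hd e1 e2 with
    ⟨-, hS⟩ | ⟨-, hS⟩ | ⟨-, hS⟩ | ⟨-, hS⟩
  · exact rank0Sol_false (A.toNat + 1) _ _ _ _ (by push_cast; omega) hS
  · exact rank0Sol_false ((9 * E).toNat + 1) _ _ _ _ (by push_cast; omega) hS
  · exact rank0Sol_false ((9 * B).toNat + 1) _ _ _ _ (by push_cast; omega) hS
  · exact rank0Sol_false (C.toNat + 1) _ _ _ _ (by push_cast; omega) hS

end Fermat.Agent.S51
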