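import Mathlib
import Fermat.Prelude.Def_FLTPrelim_Modularity

set_option autoImplicit false

namespace Fermat.Agent.S51

/-- If `k c^3 = m D` with `5 ∤ k`, `5 ∣ m`, `125 ∤ m` then `5 ∣ c` and `5 ∣ D`. -/
theorem semistable_five_aux (c D k m : ℤ) (hk : ¬ (5 : ℤ) ∣ k) (hm5 : (5 : ℤ) ∣ m)
    (hm : ¬ (125 : ℤ) ∣ m) (h : k * c ^ 3 = m * D) : (5 : ℤ) ∣ c ∧ (5 : ℤ) ∣ D := by
  have hp : Prime (5 : ℤ) := by norm_num
  have h1 : (5 : ℤ) ∣ k * c ^ 3 := by
    rw [h]; exact Dvd.dvd.mul_right hm5 D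
  have h2 : (5 : ℤ) ∣ c := hp.dvd_of_dvd_pow ((hp.dvd_or_dvd h1).resolve_left hk)
  refine ⟨h2, ?_⟩
  by_contra hD
  obtain ⟨e, rfl⟩ := h2
  have h3 : (125 : ℤ) ∣ m * D := ⟨k * e ^ 3, by rw [← h]; ring⟩
  have hcop : IsCoprime (5 : ℤ) D := (Prime.coprime_iff_not_dvd hp).2 hD
  have hcop' : IsCoprime ((5 : ℤ) ^ 3) D := hcop.pow_left
  have h4 : ((5 : ℤ) ^ 3) ∣ m := hcop'.dvd_of_dvd_mul_right (by norm_num; exact h3)
  exact hm (by norm_num at h4; exact h4)

/-- (S) endgame: the four non-cuspidal rational points of `X_0(15)` are not semistable. -/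
theorem no_t_of_semistable (W : WeierstrassCurve ℤ) (hW : W.IsSemistableModel)
    (t : ℚ) (ht : t = -10 ∨ t = -40 ∨ t = -25 / 2 ∨ t = -25 / 8)
    (h : (W.c₄ : ℚ) ^ 3 * t = (W.Δ : ℚ) * (t ^ 2 + 10 * t + 5) ^ 3) : False := by
  have key : ∀ k m : ℤ, ¬ (5 : ℤ) ∣ k → (5 : ℤ) ∣ m → ¬ (125 : ℤ) ∣ m →
      (k : ℚ) * (W.c₄ : ℚ) ^ 3 = (m : ℚ) * (W.Δ : ℚ) → False := by
    intro k m hk hm5 hm hq
    have hz : k * W.c₄ ^ 3 = m * W.Δ := by exact_mod_cast hq
    obtain ⟨h1, h2⟩ := semistable_five_aux W.c₄ W.Δ k m hk hm5 hm hz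
    exact hW 5 (by norm_num) (by exact_mod_cast h2) (by exact_mod_cast h1)
  rcases ht with rfl | rfl | rfl | rfl
  · refine key (-2) 25 (by decide) (by decide) (by decide) ?_
    push_cast
    linear_combination h / 5
  · refine key (-8) 349938025 (by decide) (by decide) (by decide) ?_
    push_cast
    linear_combination h / 5
  · refine key (-32) 121945 (by decide) (by decide) (by decide) ?_
    push_cast
    linear_combination (64 / 25) * h
  · refine key 32768 46969655 (by decide) (by decide) (by decide) ?_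
    push_cast
    linear_combination (-262144 / 25) * h

end Fermat.Agent.S51
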