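import Mathlib

set_option autoImplicit false

namespace Fermat.Agent.S51

/-- `5` is not a rational square. -/
theorem x015_no_sqrt5 (q : ℚ) : q ^ 2 ≠ 5 := by
  intro h
  have h5 : ¬ IsSquare (5 : ℚ) := by
    rw [Rat.isSquare_iff]
    norm_num
  exact h5 ⟨q, by rw [← h]; ring⟩

/-- Rational points of `Y^2 = X (X + 9) (X - 16)` (the curve `X_0(15)`), given that the
2-isogenous curve `y^2 = x (x - 1) (x - 81)` has only its 2-torsion points. -/
theorem x015_points (hrank : ∀ x y : ℚ, y ^ 2 = x * (x - 1) * (x - 81) → y = 0) (X Y : ℚ)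
    (h : Y ^ 2 = X * (X + 9) * (X - 16)) :
    (Y = 0 ∧ (X = 0 ∨ X = -9 ∨ X = 16)) ∨ (X = 36 ∧ (Y = 180 ∨ Y = -180)) ∨
      (X = -4 ∧ (Y = 20 ∨ Y = -20)) := by
  have hY0 : Y = 0 → (Y = 0 ∧ (X = 0 ∨ X = -9 ∨ X = 16)) := by
    intro hY
    refine ⟨hY, ?_⟩
    rw [hY] at h
    have h' : X * (X + 9) * (X - 16) = 0 := by rw [← h]; ring
    rcases mul_eq_zero.mp h' with h1 | h1
    · rcases mul_eq_zero.mp h1 with h2 | h2
      · exact Or.inl h2
      · exact Or.inr (Or.inl (by linarith))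
    · exact Or.inr (Or.inr (by linarith))
  by_cases hU : X - 16 = 0
  · have hX : X = 16 := by linarith
    have hY : Y = 0 := by
      have : Y ^ 2 = 0 := by rw [h, hX]; ring
      exact pow_eq_zero_iff (two_ne_zero) |>.mp this
    exact Or.inl (hY0 hY)
  · have hiso : (Y * (400 - (X - 16) ^ 2) / (X - 16) ^ 2) ^ 2 =
        Y ^ 2 / (X - 16) ^ 2 * (Y ^ 2 / (X - 16) ^ 2 - 1) * (Y ^ 2 / (X - 16) ^ 2 - 81) := by
      have h2 : Y ^ 2 / (X - 16) ^ 2 = (X * (X + 9)) / (X - 16) := by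
        rw [h]; field_simp
      rw [h2, div_pow, mul_pow, h]
      field_simp
      ring
    have key := hrank _ _ hiso
    have hnum : Y * (400 - (X - 16) ^ 2) = 0 := by
      rcases div_eq_zero_iff.mp key with h1 | h1
      · exact h1
      · exact absurd (pow_eq_zero_iff (two_ne_zero) |>.mp h1) hU
    rcases mul_eq_zero.mp hnum with hY | hX
    · exact Or.inl (hY0 hY)
    · have hX' : (X - 36) * (X + 4) = 0 := by linear_combination -hX
      rcases mul_eq_zero.mp hX' with h1 | h1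
      · have hX36 : X = 36 := by linarith
        right; left
        refine ⟨hX36, ?_⟩
        have hY2 : (Y - 180) * (Y + 180) = 0 := by rw [hX36] at h; linear_combination h
        rcases mul_eq_zero.mp hY2 with h3 | h3
        · exact Or.inl (by linarith)
        · exact Or.inr (by linarith)
      · have hX4 : X = -4 := by linarith
        right; right
        refine ⟨hX4, ?_⟩
        have hY2 : (Y - 20) * (Y + 20) = 0 := by rw [hX4] at h; linear_combination h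
        rcases mul_eq_zero.mp hY2 with h3 | h3
        · exact Or.inl (by linarith)
        · exact Or.inr (by linarith)

/-- Rational points of `X_0(15)` in the `(s, t)`-model (fibre product of `X_0(3)` and `X_0(5)`
over the `j`-line), given the rank-zero input. -/
theorem x0_15_of_rank0 (hrank : ∀ x y : ℚ, y ^ 2 = x * (x - 1) * (x - 81) → y = 0)
    (s t : ℚ) (ht : t ≠ 0)
    (h : (s + 27) * (s + 3) ^ 3 * t = (t ^ 2 + 10 * t + 5) ^ 3 * s) :
    t = -10 ∨ t = -40 ∨ t = -25 / 2 ∨ t = -25 / 8 := by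
  have hd1 : t ^ 2 + 4 * t - 1 ≠ 0 := by
    intro h0
    exact x015_no_sqrt5 (t + 2) (by linear_combination h0)
  have hd2 : t ^ 2 + 10 * t + 5 ≠ 0 := by
    intro h0
    exact x015_no_sqrt5 ((t + 5) / 2) (by linear_combination h0 / 4)
  obtain ⟨d, hd⟩ : ∃ d : ℚ, d = (t ^ 2 + 4 * t - 1) * (t ^ 2 + 10 * t + 5) ^ 2 := ⟨_, rfl⟩
  have hd0 : d ≠ 0 := by rw [hd]; exact mul_ne_zero hd1 (pow_ne_zero 2 hd2)
  obtain ⟨NX, hNX⟩ : ∃ NX : ℚ, NX =
      8 * s ^ 3 * t + 4 * s ^ 2 * t ^ 3 + 40 * s ^ 2 * t ^ 2 + 284 * s ^ 2 * t + 4 * s * t ^ 5 + 80 * s * t ^ 4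
      + 560 * s * t ^ 3 + 1600 * s * t ^ 2 + 2068 * s * t - 36 * t ^ 4 - 396 * t ^ 3 - 720 * t ^ 2
      - 36 * t - 900 := ⟨_, rfl⟩
  obtain ⟨NV, hNV⟩ : ∃ NV : ℚ, NV =
      2 * s ^ 3 * t ^ 2 + 2 * s ^ 3 * t + 2 * s ^ 2 * t ^ 3 + 86 * s ^ 2 * t ^ 2 + 76 * s ^ 2 * t
      + 60 * s * t ^ 3 + 942 * s * t ^ 2 + 642 * s * t - 2 * t ^ 7 - 61 * t ^ 6 - 672 * t ^ 5 - 3155 * t ^ 4
      - 5608 * t ^ 3 - 2169 * t ^ 2 - 4 * t - 125 := ⟨_, rfl⟩
  have hA1 : NX ^ 2 * d - 7 * NX * d ^ 2 - 144 * d ^ 3 - NV ^ 2 * NX = 0 := by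
    rw [hNX, hNV, hd]
    linear_combination
      (-32 * s ^ 5 * t ^ 4 - 64 * s ^ 5 * t ^ 3 - 32 * s ^ 5 * t ^ 2 - 16 * s ^ 4 * t ^ 6 - 256 * s ^ 4 * t ^ 5
      - 3136 * s ^ 4 * t ^ 4 - 5312 * s ^ 4 * t ^ 3 - 2416 * s ^ 4 * t ^ 2 - 16 * s ^ 3 * t ^ 8 - 384 * s ^ 3 * t ^ 7
      - 4080 * s ^ 3 * t ^ 6 - 25600 * s ^ 3 * t ^ 5 - 122544 * s ^ 3 * t ^ 4 - 165888 * s ^ 3 * t ^ 3
      - 65744 * s ^ 3 * t ^ 2 - 496 * s ^ 2 * t ^ 8 - 12272 * s ^ 2 * t ^ 7 - 121872 * s ^ 2 * t ^ 6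
      - 645712 * s ^ 2 * t ^ 5 - 2053712 * s ^ 2 * t ^ 4 - 2252304 * s ^ 2 * t ^ 3 - 756272 * s ^ 2 * t ^ 2
      + 2000 * s ^ 2 * t + 16 * s * t ^ 11 + 640 * s * t ^ 10 + 10336 * s * t ^ 9 + 85008 * s * t ^ 8
      + 357056 * s * t ^ 7 + 466480 * s * t ^ 6 - 2204000 * s * t ^ 5 - 9838512 * s * t ^ 4 - 10209424 * s * t ^ 3
      - 2994512 * s * t ^ 2 + 80000 * s * t + 16 * t ^ 13 + 816 * t ^ 12 + 17904 * t ^ 11 + 221120 * t ^ 10
      + 1690176 * t ^ 9 + 8306832 * t ^ 8 + 26577008 * t ^ 7 + 54850464 * t ^ 6 + 67959744 * t ^ 5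
      + 40978624 * t ^ 4 + 10298208 * t ^ 3 + 1947744 * t ^ 2 + 742000 * t) * h
  have hA2 : 8 * t * d ^ 2 - NV * (NX - 4 * d) + 3 * NX * d + 52 * d ^ 2 = 0 := by
    rw [hNX, hNV, hd]
    linear_combination
      (-16 * s ^ 2 * t ^ 2 - 16 * s ^ 2 * t - 8 * s * t ^ 4 - 104 * s * t ^ 3 - 760 * s * t ^ 2 - 600 * s * t
      - 8 * t ^ 6 - 176 * t ^ 5 - 1416 * t ^ 4 - 5368 * t ^ 3 - 10656 * t ^ 2 - 4936 * t) * h
  -- the point `(X, Y) = (X, v X)` of `Y^2 = X (X + 9) (X - 16)`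
  have ha : (NX / d) ^ 2 - (7 + (NV / d) ^ 2) * (NX / d) - 144 = 0 := by
    have : (NX / d) ^ 2 - (7 + (NV / d) ^ 2) * (NX / d) - 144 =
        (NX ^ 2 * d - 7 * NX * d ^ 2 - 144 * d ^ 3 - NV ^ 2 * NX) / d ^ 3 := by
      field_simp
      ring
    rw [this, hA1, zero_div]
  have hc : 8 * t = (NV / d) * (NX / d - 4) - 3 * (NX / d) - 52 := by
    have : 8 * t - ((NV / d) * (NX / d - 4) - 3 * (NX / d) - 52) =
        (8 * t * d ^ 2 - NV * (NX - 4 * d) + 3 * NX * d + 52 * d ^ 2) / d ^ 2 := by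
      field_simp
      ring
    have h0 : 8 * t - ((NV / d) * (NX / d - 4) - 3 * (NX / d) - 52) = 0 := by
      rw [this, hA2, zero_div]
    linear_combination h0
  generalize NX / d = X at ha hc
  generalize NV / d = v at ha hc
  have hX0 : X ≠ 0 := by
    rintro rfl
    norm_num at ha
  have hE : (v * X) ^ 2 = X * (X + 9) * (X - 16) := by linear_combination (-X) * ha
  rcases x015_points hrank X (v * X) hE with ⟨hY, hX⟩ | ⟨hX, hY⟩ | ⟨hX, hY⟩
  · have hv : v = 0 := by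
      rcases mul_eq_zero.mp hY with h1 | h1
      · exact h1
      · exact absurd h1 hX0
    rw [hv] at hc
    rcases hX with hX | hX | hX
    · exact absurd hX hX0
    · right; right; right
      rw [hX] at hc; linarith
    · right; right; left
      rw [hX] at hc; linarith
  · rw [hX] at hc hY
    rcases hY with hY | hY
    · exfalso
      apply ht
      have hv : v = 5 := by linarith
      rw [hv] at hc; linarith
    · right; left
      have hv : v = -5 := by linarith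
      rw [hv] at hc; linarith
  · rw [hX] at hc hY
    rcases hY with hY | hY
    · exfalso
      apply ht
      have hv : v = -5 := by linarith
      rw [hv] at hc; linarith
    · left
      have hv : v = 5 := by linarith
      rw [hv] at hc; linarith

end Fermat.Agent.S51
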