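/-
S51 piece T5(d): the key identity for a point of order 5.
If `P = (x₁, y₁)`, `2P = (x₂, y₂)` and `4P = -P` then, with `δ = x₁ - x₂`,
`c₄ δ¹⁰ = Δ² + 10 Δ δ⁶ + 5 δ¹²`.
-/
import Mathlib
import Fermat.Agent.S51.FiveTorsionExists

set_option autoImplicit false

namespace Fermat.Agent.S51

open WeierstrassCurve

section

variable {K : Type*} [Field K]

/-- Algebraic core of the key identity: move `P` to the origin with horizontal tangent. -/
lemma ft_key_alg (W : WeierstrassCurve K) (x1 y1 x2 y2 l1 l2 : K)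
    (hcurve : y1 ^ 2 + W.a₁ * x1 * y1 + W.a₃ * y1 = x1 ^ 3 + W.a₂ * x1 ^ 2 + W.a₄ * x1 + W.a₆)
    (hl1 : l1 * (2 * y1 + W.a₁ * x1 + W.a₃) = 3 * x1 ^ 2 + 2 * W.a₂ * x1 + W.a₄ - W.a₁ * y1)
    (E1 : x2 = l1 ^ 2 + W.a₁ * l1 - W.a₂ - x1 - x1)
    (E2 : y2 = -(l1 * (x2 - x1) + y1) - W.a₁ * x2 - W.a₃)
    (E3 : x1 = l2 ^ 2 + W.a₁ * l2 - W.a₂ - x2 - x2)
    (E4 : -y1 - W.a₁ * x1 - W.a₃ = -(l2 * (x1 - x2) + y2) - W.a₁ * x1 - W.a₃) :
    W.c₄ * (x1 - x2) ^ 10 = W.Δ ^ 2 + 10 * W.Δ * (x1 - x2) ^ 6 + 5 * (x1 - x2) ^ 12 := by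
  set C : VariableChange K := ⟨1, x1, l1, y1⟩ with hC
  have ha₁ : (C • W).a₁ = W.a₁ + 2 * l1 := by
    rw [variableChange_a₁]; simp [hC]
  have ha₂ : (C • W).a₂ = W.a₂ - l1 * W.a₁ + 3 * x1 - l1 ^ 2 := by
    rw [variableChange_a₂]; simp [hC]
  have ha₃ : (C • W).a₃ = W.a₃ + x1 * W.a₁ + 2 * y1 := by
    rw [variableChange_a₃]; simp [hC]
  have ha₄ : (C • W).a₄ = 0 := by
    rw [variableChange_a₄]; simp only [hC, inv_one, Units.val_one, one_pow, one_mul]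
    linear_combination -hl1
  have ha₆ : (C • W).a₆ = 0 := by
    rw [variableChange_a₆]; simp only [hC, inv_one, Units.val_one, one_pow, one_mul]
    linear_combination -hcurve
  have hc₄ : (C • W).c₄ = W.c₄ := by
    rw [variableChange_c₄]; simp [hC]
  have hΔ : (C • W).Δ = W.Δ := by
    rw [variableChange_Δ]; simp [hC]
  have hδ : x1 - x2 = (C • W).a₂ := by rw [ha₂]; linear_combination -E1
  have hR1 : (C • W).a₂ = -(l2 - l1) * (l2 + l1 + W.a₁) := by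
    rw [ha₂]; linear_combination 2 * E1 - E3
  have hR2 : (C • W).a₃ = (C • W).a₂ * (l2 + l1 + W.a₁) := by
    rw [ha₃, ← hδ]; linear_combination E2 - E4
  have e1 : (C • W).a₁ = (l2 + l1 + W.a₁) - (l2 - l1) := by rw [ha₁]; ring
  rw [← hc₄, ← hΔ, hδ]
  simp only [c₄, Δ, b₂, b₄, b₆, b₈, ha₄, ha₆]
  rw [e1, hR2, hR1]
  generalize l2 + l1 + W.a₁ = m
  generalize l2 - l1 = l
  ring

/-- **Key identity** for a point of order 5: if `P = (x₁, y₁)`, `2P = (x₂, y₂)` and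
`2(2P) = -P`, then `c₄ (x₁-x₂)¹⁰ = Δ² + 10 Δ (x₁-x₂)⁶ + 5 (x₁-x₂)¹²`. -/
theorem ft_key_identity [DecidableEq K] (W : WeierstrassCurve K) {x1 y1 x2 y2 : K}
    (h1 : W.toAffine.Nonsingular x1 y1) (h2 : W.toAffine.Nonsingular x2 y2)
    (hdbl : Affine.Point.some x1 y1 h1 + Affine.Point.some x1 y1 h1 = Affine.Point.some x2 y2 h2)
    (hquad : Affine.Point.some x2 y2 h2 + Affine.Point.some x2 y2 h2
      = -Affine.Point.some x1 y1 h1) :
    W.c₄ * (x1 - x2) ^ 10 = W.Δ ^ 2 + 10 * W.Δ * (x1 - x2) ^ 6 + 5 * (x1 - x2) ^ 12 := by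
  have hy1 : y1 ≠ W.toAffine.negY x1 y1 := by
    intro hy
    rw [Affine.Point.add_self_of_Y_eq hy] at hdbl
    exact Affine.Point.some_ne_zero h2 hdbl.symm
  have hy2 : y2 ≠ W.toAffine.negY x2 y2 := by
    intro hy
    rw [Affine.Point.add_self_of_Y_eq hy, Affine.Point.neg_some] at hquad
    exact Affine.Point.some_ne_zero _ hquad.symm
  rw [Affine.Point.add_self_of_Y_ne hy1] at hdbl
  rw [Affine.Point.add_self_of_Y_ne hy2, Affine.Point.neg_some] at hquad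
  injection hdbl with hx2 hY2
  injection hquad with hx1 hY1
  have hl1 := Affine.slope_of_Y_ne (W := W.toAffine) (x₁ := x1) (x₂ := x1) (y₂ := y1) rfl hy1
  have hd1 : y1 - W.toAffine.negY x1 y1 ≠ 0 := sub_ne_zero.mpr hy1
  have hcurve := (Affine.equation_iff (W := W.toAffine) x1 y1).mp h1.1
  refine ft_key_alg W x1 y1 x2 y2 (W.toAffine.slope x1 x1 y1 y1) (W.toAffine.slope x2 x2 y2 y2)
    hcurve ?_ ?_ ?_ ?_ ?_
  · rw [hl1, div_mul_eq_mul_div, div_eq_iff hd1]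
    simp only [Affine.negY]
    ring
  · rw [← hx2]; simp only [Affine.addX]
  · rw [← hY2, ← hx2]; simp only [Affine.addY, Affine.negAddY, Affine.negY, Affine.addX]
  · rw [← hx1]; simp only [Affine.addX]
  · rw [Affine.addY, Affine.negAddY, hx1] at hY1
    simp only [Affine.negY] at hY1
    exact hY1.symm

/-- A nonzero point killed by `5` has the form `P = (x₁, y₁)` with `2P = (x₂, y₂)`, `x₁ ≠ x₂`,
`2(2P) = -P`, and the key identity holds. -/
theorem ft_five_torsion_data [DecidableEq K] (W : WeierstrassCurve K) (P : W.toAffine.Point)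
    (hP : P ≠ 0) (h5 : (5 : ℤ) • P = 0) :
    ∃ (x1 y1 x2 y2 : K) (h1 : W.toAffine.Nonsingular x1 y1)
      (h2 : W.toAffine.Nonsingular x2 y2),
      P = Affine.Point.some x1 y1 h1 ∧ P + P = Affine.Point.some x2 y2 h2 ∧
      Affine.Point.some x2 y2 h2 + Affine.Point.some x2 y2 h2 = -P ∧ x1 ≠ x2 ∧
      W.c₄ * (x1 - x2) ^ 10 = W.Δ ^ 2 + 10 * W.Δ * (x1 - x2) ^ 6 + 5 * (x1 - x2) ^ 12 := by
  have h5' : P + P + P + P + P = 0 := by rw [← h5]; abel
  have h2P : P + P ≠ 0 := by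
    intro h2
    apply hP
    calc P = (P + P + P + P + P) - (P + P) - (P + P) := by abel
      _ = 0 := by rw [h5', h2]; simp
  have hquad : (P + P) + (P + P) = -P := by
    rw [eq_neg_iff_add_eq_zero, ← h5']; abel
  rcases hPd : P with _ | ⟨x1, y1, h1⟩
  · exact absurd hPd hP
  rcases h2Pd : P + P with _ | ⟨x2, y2, h2⟩
  · exact absurd h2Pd h2P
  rw [h2Pd] at hquad
  have hdbl : Affine.Point.some x1 y1 h1 + Affine.Point.some x1 y1 h1
      = Affine.Point.some x2 y2 h2 := by rw [← hPd, h2Pd]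
  have hquad' : Affine.Point.some x2 y2 h2 + Affine.Point.some x2 y2 h2
      = -Affine.Point.some x1 y1 h1 := by rw [hquad, hPd]
  refine ⟨x1, y1, x2, y2, h1, h2, rfl, hdbl, hquad', ?_, ft_key_identity W h1 h2 hdbl hquad'⟩
  intro hx
  rcases (Affine.Point.X_eq_iff (h₁ := h1) (h₂ := h2)).mp hx with hcase | hcase
  · -- P = 2P
    apply hP
    rw [← hPd, ← h2Pd] at hcase
    calc P = (P + P) - P := by abel
      _ = 0 := by rw [← hcase]; simp
  · -- P = -2P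
    apply hP
    rw [← hPd, ← h2Pd] at hcase
    have h3 : P + P + P = 0 := by
      rw [← eq_neg_iff_add_eq_zero.mp hcase]; abel
    calc P = (P + P + P) + (P + P + P) - (P + P + P + P + P) := by abel
      _ = 0 := by rw [h5', h3]; simp

/-- The `t`-form of the key identity: `t = Δ/δ⁶` satisfies `c₄³ t = Δ (t² + 10 t + 5)³`. -/
theorem ft_t_identity (c4 D d : K) (hd : d ≠ 0)
    (h : c4 * d ^ 10 = D ^ 2 + 10 * D * d ^ 6 + 5 * d ^ 12) :
    c4 ^ 3 * (D / d ^ 6) = D * ((D / d ^ 6) ^ 2 + 10 * (D / d ^ 6) + 5) ^ 3 := by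
  have h1 : (D / d ^ 6) ^ 2 + 10 * (D / d ^ 6) + 5 = c4 / d ^ 2 := by
    field_simp
    linear_combination -h
  rw [h1]
  field_simp

end

end Fermat.Agent.S51
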