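import Fermat.Agent.S51.Common

set_option autoImplicit false
open WeierstrassCurve WeierstrassCurve.Affine WeierstrassCurve.Affine.Point

namespace Fermat.Agent.S51

section General

variable {F : Type*} [Field F] (E : Affine F)

/-- `D(x) = 4x³ + b₂x² + 2b₄x + b₆`. -/
def three_D (x : F) : F := 4 * x ^ 3 + E.b₂ * x ^ 2 + 2 * E.b₄ * x + E.b₆

/-- `q(x) = 6x² + b₂x + b₄`. -/
def three_q (x : F) : F := 6 * x ^ 2 + E.b₂ * x + E.b₄

/-- The `3`-division polynomial `ψ₃(x) = 3x⁴ + b₂x³ + 3b₄x² + 3b₆x + b₈`. -/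
def three_psi (x : F) : F := 3 * x ^ 4 + E.b₂ * x ^ 3 + 3 * E.b₄ * x ^ 2 + 3 * E.b₆ * x + E.b₈

theorem three_I1 (x : F) : three_q E x ^ 3 - 27 * three_D E x ^ 2 - E.Δ =
    (-72 * x ^ 2 - 12 * E.b₂ * x + E.b₂ ^ 2 - 36 * E.b₄) * three_psi E x := by
  simp only [three_q, three_D, three_psi, WeierstrassCurve.Δ, WeierstrassCurve.b₂,
    WeierstrassCurve.b₄, WeierstrassCurve.b₆, WeierstrassCurve.b₈]
  ring

theorem three_I2 (x : F) :
    E.c₄ * three_D E x ^ 2 - three_q E x * (three_q E x ^ 3 - 24 * three_D E x ^ 2) =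
    (336 * x ^ 4 + 112 * E.b₂ * x ^ 3 + (8 * E.b₂ ^ 2 + 144 * E.b₄) * x ^ 2 +
      (16 * E.b₂ * E.b₄ + 48 * E.b₆) * x + 4 * E.b₂ * E.b₆ + 4 * E.b₄ ^ 2) * three_psi E x := by
  simp only [three_q, three_D, three_psi, WeierstrassCurve.c₄, WeierstrassCurve.b₂,
    WeierstrassCurve.b₄, WeierstrassCurve.b₆, WeierstrassCurve.b₈]
  ring

theorem three_I3 (x : F) :
    4 * three_psi E x = three_D E x * (12 * x + E.b₂) - three_q E x ^ 2 := by
  simp only [three_q, three_D, three_psi, WeierstrassCurve.b₂,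
    WeierstrassCurve.b₄, WeierstrassCurve.b₆, WeierstrassCurve.b₈]
  ring

theorem three_D_ne_zero (hΔ : E.Δ ≠ 0) {x : F} (hx : three_psi E x = 0) : three_D E x ≠ 0 := by
  intro hD
  have h3 := three_I3 E x
  rw [hx, hD] at h3
  have hq : three_q E x = 0 := by
    have : three_q E x ^ 2 = 0 := by linear_combination h3
    exact pow_eq_zero_iff (two_ne_zero) |>.mp this
  have h1 := three_I1 E x
  rw [hx, hD, hq] at h1
  apply hΔ
  linear_combination -h1

/-- The key algebraic identity. -/
theorem three_identity (hΔ : E.Δ ≠ 0) {x : F} (hx : three_psi E x = 0) :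
    E.c₄ ^ 3 * (E.Δ / three_D E x ^ 2) =
      E.Δ * ((E.Δ / three_D E x ^ 2 + 27) * (E.Δ / three_D E x ^ 2 + 3) ^ 3) := by
  have hD := three_D_ne_zero E hΔ hx
  have h1 := three_I1 E x
  have h2 := three_I2 E x
  rw [hx, mul_zero] at h1 h2
  have e1 : E.Δ = three_q E x ^ 3 - 27 * three_D E x ^ 2 := by linear_combination -h1
  have e2 : E.c₄ * three_D E x ^ 2 =
      three_q E x * (three_q E x ^ 3 - 24 * three_D E x ^ 2) := by linear_combination h2
  have e3 : E.Δ / three_D E x ^ 2 + 27 = three_q E x ^ 3 / three_D E x ^ 2 := by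
    rw [e1]; field_simp; ring
  have e4 : E.Δ / three_D E x ^ 2 + 3 =
      (three_q E x ^ 3 - 24 * three_D E x ^ 2) / three_D E x ^ 2 := by
    rw [e1]; field_simp; ring
  rw [e3, e4]
  have e5 : E.c₄ = three_q E x * (three_q E x ^ 3 - 24 * three_D E x ^ 2) / three_D E x ^ 2 := by
    rw [← e2]; field_simp
  rw [e5]
  field_simp

theorem three_psi_eq (x : F) :
    three_psi E x = x * three_D E x - (x ^ 4 - E.b₄ * x ^ 2 - 2 * E.b₆ * x - E.b₈) := by
  simp only [three_psi, three_D]
  ring

/-- `ψ₃` as a polynomial. -/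
noncomputable def three_poly : Polynomial F :=
  Polynomial.C 3 * Polynomial.X ^ 4 + Polynomial.C E.b₂ * Polynomial.X ^ 3 +
    Polynomial.C (3 * E.b₄) * Polynomial.X ^ 2 + Polynomial.C (3 * E.b₆) * Polynomial.X +
    Polynomial.C E.b₈

theorem three_poly_eval (x : F) : (three_poly E).eval x = three_psi E x := by
  simp only [three_poly, Polynomial.eval_add, Polynomial.eval_mul,
    Polynomial.eval_C, Polynomial.eval_pow, Polynomial.eval_X, three_psi]

theorem three_poly_natDegree [CharZero F] : (three_poly E).natDegree = 4 := by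
  unfold three_poly
  compute_degree!

theorem three_poly_ne_zero [CharZero F] : three_poly E ≠ 0 := by
  intro h
  have := three_poly_natDegree E
  rw [h, Polynomial.natDegree_zero] at this
  exact absurd this (by norm_num)

section Dec

variable [DecidableEq F]

/-- The `x`-coordinate of a nonzero `3`-torsion point is a root of `ψ₃`. -/
theorem three_psi_eq_zero_of_torsion {x y : F} (h : E.Nonsingular x y)
    (h3 : (3 : ℤ) • Point.some x y h = 0) : three_psi E x = 0 := by
  have hsplit : (3 : ℤ) • Point.some x y h = (2 : ℤ) • Point.some x y h + Point.some x y h := by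
    rw [show (3 : ℤ) = 2 + 1 by norm_num, add_zsmul, one_zsmul]
  have hy : y ≠ E.negY x y := by
    intro hy
    rw [hsplit, (g_two_zsmul_eq_zero_iff E h).mpr hy, zero_add] at h3
    exact some_ne_zero h h3
  have h2 : (2 : ℤ) • Point.some x y h = -Point.some x y h := by
    rw [hsplit] at h3
    exact eq_neg_of_add_eq_zero_left h3
  rw [g_two_zsmul_some E h hy, neg_some] at h2
  have hx : E.addX x x (E.slope x x y y) = x := by
    simp only [Point.some.injEq] at h2
    exact h2.1
  have e1 := g_addX_self_mul E h.1 hy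
  have e2 := g_psi_sq E h.1
  rw [hx, e2] at e1
  rw [three_psi_eq]
  simp only [three_D]
  linear_combination e1

/-- Over an algebraically closed field of characteristic zero, an elliptic curve has a nonzero
`3`-torsion point. -/
theorem three_exists_torsion [IsAlgClosed F] [CharZero F] (hΔ : E.Δ ≠ 0) :
    ∃ (x y : F) (h : E.Nonsingular x y), (3 : ℤ) • Point.some x y h = 0 := by
  -- a root of ψ₃
  have hp : (three_poly E).degree ≠ 0 := by
    rw [Polynomial.degree_eq_natDegree (three_poly_ne_zero E), three_poly_natDegree]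
    norm_num
  obtain ⟨x, hx⟩ := IsAlgClosed.exists_root (three_poly E) hp
  have hx' : three_psi E x = 0 := by
    rw [← three_poly_eval]; exact hx
  -- a point with this x-coordinate
  have hq : (g_quad E x).degree ≠ 0 := by
    rw [Polynomial.degree_eq_natDegree (g_quad_ne_zero E x), g_quad_natDegree]
    norm_num
  obtain ⟨y, hy⟩ := IsAlgClosed.exists_root (g_quad E x) hq
  have heq : E.Equation x y := by
    rw [E.equation_iff]
    simp only [g_quad, Polynomial.IsRoot.def, Polynomial.eval_add, Polynomial.eval_mul,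
      Polynomial.eval_C, Polynomial.eval_pow, Polynomial.eval_X] at hy
    linear_combination hy
  have hns : E.Nonsingular x y := (E.equation_iff_nonsingular_of_Δ_ne_zero hΔ).mp heq
  refine ⟨x, y, hns, ?_⟩
  have hD := three_D_ne_zero E hΔ hx'
  have e2 := g_psi_sq E heq
  have hyne : y ≠ E.negY x y := by
    intro hyy
    apply hD
    have : y - E.negY x y = 0 := sub_eq_zero.mpr hyy
    rw [this] at e2
    simp only [three_D]
    linear_combination -e2
  have e1 := g_addX_self_mul E heq hyne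
  have hxx : E.addX x x (E.slope x x y y) = x := by
    rw [e2] at e1
    rw [three_psi_eq] at hx'
    have hD' : 4 * x ^ 3 + E.b₂ * x ^ 2 + 2 * E.b₄ * x + E.b₆ ≠ 0 := hD
    apply mul_right_cancel₀ hD'
    simp only [three_D] at hx'
    linear_combination e1 - hx'
  have h2 := g_two_zsmul_some E hns hyne
  have hns2 := nonsingular_add hns hns fun hxy => hyne hxy.2
  have hsplit : (3 : ℤ) • Point.some x y hns =
      (2 : ℤ) • Point.some x y hns + Point.some x y hns := by
    rw [show (3 : ℤ) = 2 + 1 by norm_num, add_zsmul, one_zsmul]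
  rcases Y_eq_of_X_eq hns2.1 heq hxx with hy1 | hy1
  · -- `2P = P` is impossible
    exfalso
    have : (2 : ℤ) • Point.some x y hns = Point.some x y hns := by
      rw [h2]
      simp only [Point.some.injEq]
      exact ⟨hxx, hy1⟩
    rw [two_zsmul] at this
    exact some_ne_zero hns (add_eq_right.mp this)
  · have : (2 : ℤ) • Point.some x y hns = -Point.some x y hns := by
      rw [h2, neg_some]
      simp only [Point.some.injEq]
      exact ⟨hxx, hy1⟩
    rw [hsplit, this, neg_add_cancel]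

end Dec

end General

theorem three_map_psi {F K : Type*} [Field F] [Field K] (E : Affine F) (f : F →+* K) (x : F) :
    three_psi (E.map f) (f x) = f (three_psi E x) := by
  simp only [three_psi, WeierstrassCurve.map_b₂, WeierstrassCurve.map_b₄,
    WeierstrassCurve.map_b₆, WeierstrassCurve.map_b₈, map_add, map_mul, map_pow, map_ofNat]

/-- If the mod-`3` representation of `W` is reducible, then `j(W)` lies in the image of
`X₀(3)`: there is a rational `s ≠ 0` with `c₄³ s = Δ (s + 27) (s + 3)³`. -/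
theorem exists_s_of_not_irred3 (W : WeierstrassCurve ℤ) (hΔ : W.Δ ≠ 0)
    (h : ¬ W.ModRepIsIrreducible 3) :
    ∃ s : ℚ, s ≠ 0 ∧ (W.c₄ : ℚ) ^ 3 * s = (W.Δ : ℚ) * ((s + 27) * (s + 3) ^ 3) := by
  classical
  have hc4 : (EQ W).c₄ = (W.c₄ : ℚ) := by
    rw [WeierstrassCurve.map_c₄]; rfl
  have hΔ' : (EQ W).Δ = (W.Δ : ℚ) := by
    rw [WeierstrassCurve.map_Δ]; rfl
  have hΔQ : (EQ W).Δ ≠ 0 := by
    rw [hΔ']; exact_mod_cast hΔ
  have hΔK : ((EQ W)⁄(AlgebraicClosure ℚ)).Δ ≠ 0 := by
    show ((EQ W).map (algebraMap ℚ (AlgebraicClosure ℚ))).Δ ≠ 0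
    rw [WeierstrassCurve.map_Δ]
    exact (map_ne_zero _).mpr hΔQ
  -- the `3`-torsion is nontrivial
  obtain ⟨x₁, y₁, h₁, h3₁⟩ := three_exists_torsion ((EQ W)⁄(AlgebraicClosure ℚ)) hΔK
  have hnt : Nontrivial
      (Submodule.torsionBy ℤ ((EQ W)⁄(AlgebraicClosure ℚ)).Point (3 : ℕ)) := by
    refine ⟨⟨⟨Point.some x₁ y₁ h₁, ?_⟩, 0, ?_⟩⟩
    · rw [Submodule.mem_torsionBy_iff]
      exact_mod_cast h3₁
    · intro h0
      exact some_ne_zero h₁ (congrArg Subtype.val h0)
  -- the `3`-torsion has at most `9` elements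
  obtain ⟨hfin, hcard⟩ := g_card_torsion_le ((EQ W)⁄(AlgebraicClosure ℚ)) 3
    (three_poly _) (three_poly_ne_zero _) (fun x y hxy h3 => by
      rw [three_poly_eval]
      exact three_psi_eq_zero_of_torsion _ hxy (by exact_mod_cast h3))
  rw [three_poly_natDegree] at hcard
  have : Fact (Nat.Prime 3) := ⟨Nat.prime_three⟩
  obtain ⟨P, hP0, hP3, hPσ⟩ := exists_eigen_point W 3 hfin (by omega) hnt h
  rcases P with _ | ⟨x, y, hxy⟩
  · exact absurd rfl hP0
  have hP3' : (3 : ℤ) • Point.some x y hxy = 0 := by exact_mod_cast hP3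
  -- the `x`-coordinate is Galois-invariant
  have hx : ∀ σ : AlgebraicClosure ℚ ≃ₐ[ℚ] AlgebraicClosure ℚ, σ x = x := by
    intro σ
    obtain ⟨k, hk⟩ := hPσ σ
    obtain ⟨h', hσ⟩ := smul_some W σ x y hxy
    rw [hσ] at hk
    have hkmod : k • Point.some x y hxy = (k % 3) • Point.some x y hxy := by
      conv_lhs => rw [← Int.emod_add_mul_ediv k 3]
      rw [add_zsmul, mul_comm, mul_zsmul, hP3', zsmul_zero, add_zero]
    rw [hkmod] at hk
    have hk3 : k % 3 = 0 ∨ k % 3 = 1 ∨ k % 3 = 2 := by omega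
    rcases hk3 with h0 | h1 | h2
    · rw [h0, zero_zsmul] at hk
      exact absurd hk (some_ne_zero h')
    · rw [h1, one_zsmul] at hk
      simp only [Point.some.injEq] at hk
      exact hk.1
    · have hneg : (2 : ℤ) • Point.some x y hxy = -Point.some x y hxy := by
        have : (3 : ℤ) • Point.some x y hxy =
            (2 : ℤ) • Point.some x y hxy + Point.some x y hxy := by
          rw [show (3 : ℤ) = 2 + 1 by norm_num, add_zsmul, one_zsmul]
        rw [this] at hP3'
        exact eq_neg_of_add_eq_zero_left hP3'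
      rw [h2, hneg, neg_some] at hk
      simp only [Point.some.injEq] at hk
      exact hk.1
  obtain ⟨r, hr⟩ := rational_of_fixed x hx
  have hψK : three_psi ((EQ W)⁄(AlgebraicClosure ℚ)) x = 0 :=
    three_psi_eq_zero_of_torsion _ hxy hP3'
  have hψQ : three_psi (EQ W) r = 0 := by
    have hm := three_map_psi (EQ W) (algebraMap ℚ (AlgebraicClosure ℚ)) r
    rw [hr] at hm
    have hm' : three_psi ((EQ W)⁄(AlgebraicClosure ℚ)) x =
        algebraMap ℚ (AlgebraicClosure ℚ) (three_psi (EQ W) r) := hm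
    rw [hψK] at hm'
    exact (map_eq_zero _).mp hm'.symm
  refine ⟨(EQ W).Δ / three_D (EQ W) r ^ 2,
    div_ne_zero hΔQ (pow_ne_zero 2 (three_D_ne_zero _ hΔQ hψQ)), ?_⟩
  have key := three_identity (EQ W) hΔQ hψQ
  rw [← hc4, ← hΔ']
  exact key

end Fermat.Agent.S51
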